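/-
Programme T1B (row 38 / S44), cell R2/BRANDT (owner helper36), part (e) (helper96):
UNRAMIFIEDNESS AT THE NODES, local form (Mathlib + helper37's `NodeData`).

`A`, `A'` the local rings of two normal nodal models at nodes `𝔫`, `𝔫'` (levels `N` and `N ℓ`),
`φ : A → A'` the localisation of a degeneracy map (`α` or `β`), `φ π = π'`, and the vertical primes
correspond: `φ⁻¹ P_i' ⊆ P_i`.  With `D : NodeData A v₁ v₂ P₁ P₂ π x y K` (`x y = π ^ K · unit`,
`𝔪 = (π, x, y)`, `v₁ x = 0 = v₂ y`) and `D' : NodeData A' …  π' x' y' K'`: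

* `v₁_map`, `v₂_map`      : `v_i' (φ f) = v_i f` (the vertical valuations are unramified, `π ↦ π'`);
* `associated_pow`        : `φ x ^ K' ~ x' ^ K`, `φ y ^ K' ~ y' ^ K`;
* `associated`            : for equal thickness `K' = K`: `φ x ~ x'`, `φ y ~ y'` (`α(x_e) = x' · unit`);
* `maximalIdeal_eq₁/₂`    : `𝔪' = φ(𝔪) A' + P_i'`: the branch `i` through `𝔫'` is unramified over
  the branch `i` through `𝔫`.
-/
import Mathlib
import Fermat.Agent.T1.Peu37.NodeClassGroup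

set_option autoImplicit false
set_option linter.unusedSectionVars false
set_option linter.unusedVariables false

namespace Fermat.Agent.T1B.Brandt96

open IsLocalRing Fermat.Agent.T1.Peu37.NodeClassGroup

variable {A : Type*} [CommRing A] [IsDomain A] [IsLocalRing A]
variable {v₁ v₂ : A → ℕ} {P₁ P₂ : Ideal A} {π x y : A} {K : ℕ}

section One

variable (D : NodeData A v₁ v₂ P₁ P₂ π x y K)
include D

theorem x_not_mem : x ∉ P₁ := fun hx => by
  have := (D.mem_P₁ x D.x_ne).1 hx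
  rw [D.v₁_x] at this
  omega

theorem y_mem : y ∈ P₁ := (D.mem_P₁ y D.y_ne).2 (by rw [D.v₁_y]; exact D.K_pos)

theorem pi_mem : π ∈ P₁ := (D.mem_P₁ π D.pi_ne).2 (by rw [D.v₁_pi])

theorem v₂_x : v₂ x = K := D.symm.v₁_y

theorem v₁_eq_zero_of_not_mem {f : A} (hf : f ∉ P₁) : v₁ f = 0 := by
  have hf0 : f ≠ 0 := fun h => hf (h ▸ P₁.zero_mem)
  have := (D.mem_P₁ f hf0).not.1 hf
  omega

theorem not_mem_of_v₁_eq_zero {f : A} (hf0 : f ≠ 0) (hf : v₁ f = 0) : f ∉ P₁ := fun h => by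
  have := (D.mem_P₁ f hf0).1 h
  omega

/-- `x` divides `π ^ K`. -/
theorem x_mul_eq : ∃ c : A, x * c = π ^ K := by
  obtain ⟨ε, hε, h⟩ := D.rel
  obtain ⟨ε', hεε'⟩ := hε.exists_right_inv
  exact ⟨y * ε', by rw [← mul_assoc, h, mul_assoc, hεε', mul_one]⟩

/-- Stripping the vertical part along the first branch: `f x ^ n = π ^ n g` with `n = v₁ f` and
`g ∉ P₁`. -/
theorem exists_strip : ∀ (n : ℕ) (f : A), f ≠ 0 → v₁ f = n →
    ∃ g : A, g ≠ 0 ∧ v₁ g = 0 ∧ f * x ^ n = π ^ n * g := by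
  intro n
  induction n with
  | zero =>
    intro f hf hn
    exact ⟨f, hf, hn, by rw [pow_zero, pow_zero, mul_one, one_mul]⟩
  | succ n ih =>
    intro f hf hn
    have hfx : f * x ≠ 0 := mul_ne_zero hf D.x_ne
    have e1 := D.v₁_mul f x hf D.x_ne
    have e2 := D.v₂_mul f x hf D.x_ne
    rw [D.v₁_x] at e1
    rw [v₂_x D] at e2
    have hK := D.K_pos
    obtain ⟨f₁, hf₁⟩ := D.sat (f * x) hfx (by omega) (by omega)
    have hf₁0 : f₁ ≠ 0 := by
      rintro rfl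
      rw [mul_zero] at hf₁
      exact hfx hf₁
    have e3 := D.v₁_mul π f₁ D.pi_ne hf₁0
    rw [← hf₁, D.v₁_pi] at e3
    obtain ⟨g, hg0, hg, hrel⟩ := ih f₁ hf₁0 (by omega)
    refine ⟨g, hg0, hg, ?_⟩
    calc f * x ^ (n + 1) = (f * x) * x ^ n := by ring
      _ = π * (f₁ * x ^ n) := by rw [hf₁]; ring
      _ = π ^ (n + 1) * g := by rw [hrel]; ring

/-- Divisibility by a vertical element is detected by the two vertical valuations. -/
theorem dvd_of_vertical {h h' : A} {m : ℕ} (hh : h * h' = π ^ m) {f : A} (hf : f ≠ 0)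
    (h1 : v₁ h ≤ v₁ f) (h2 : v₂ h ≤ v₂ f) : h ∣ f := by
  have hpm : π ^ m ≠ 0 := pow_ne_zero m D.pi_ne
  have hh0 : h ≠ 0 := by
    rintro rfl
    rw [zero_mul] at hh
    exact hpm hh.symm
  have hh'0 : h' ≠ 0 := by
    rintro rfl
    rw [mul_zero] at hh
    exact hpm hh.symm
  have e1 := D.v₁_mul h h' hh0 hh'0
  have e2 := D.v₂_mul h h' hh0 hh'0
  rw [hh, D.v₁_pow D.pi_ne, D.v₁_pi, mul_one] at e1
  rw [hh, D.symm.v₁_pow D.pi_ne, D.v₂_pi, mul_one] at e2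
  have f1 := D.v₁_mul f h' hf hh'0
  have f2 := D.v₂_mul f h' hf hh'0
  obtain ⟨t, ht⟩ := D.pow_dvd_of_le m (f * h') (mul_ne_zero hf hh'0) (by omega) (by omega)
  refine ⟨t, ?_⟩
  have : h' * f = h' * (h * t) := by
    calc h' * f = f * h' := mul_comm _ _
      _ = π ^ m * t := ht
      _ = h * h' * t := by rw [hh]
      _ = h' * (h * t) := by ring
  exact mul_left_cancel₀ hh'0 this

/-- Two vertical elements with the same vertical valuations are associated. -/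
theorem associated_of_vertical {a a' b b' : A} {m n : ℕ} (ha : a * a' = π ^ m)
    (hb : b * b' = π ^ n) (h1 : v₁ a = v₁ b) (h2 : v₂ a = v₂ b) : Associated a b := by
  have ha0 : a ≠ 0 := by
    rintro rfl
    rw [zero_mul] at ha
    exact pow_ne_zero m D.pi_ne ha.symm
  have hb0 : b ≠ 0 := by
    rintro rfl
    rw [zero_mul] at hb
    exact pow_ne_zero n D.pi_ne hb.symm
  exact associated_of_dvd_dvd (dvd_of_vertical D ha hb0 h1.le h2.le)
    (dvd_of_vertical D hb ha0 h1.ge h2.ge)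

end One

variable {A' : Type*} [CommRing A'] [IsDomain A'] [IsLocalRing A']
variable {v₁' v₂' : A' → ℕ} {P₁' P₂' : Ideal A'} {π' x' y' : A'} {K' : ℕ}

section Two

variable (D : NodeData A v₁ v₂ P₁ P₂ π x y K) (D' : NodeData A' v₁' v₂' P₁' P₂' π' x' y' K')
  (φ : A →+* A') (hπ : φ π = π')
include D D' hπ

/-- **(E0)** The vertical valuation along the first branch is preserved by `φ`
(`e(O₁'/O₁) = 1` since `π ↦ π'`). -/
theorem v₁_map (h₁ : P₁'.comap φ ≤ P₁) {f : A} (hf : f ≠ 0) :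
    φ f ≠ 0 ∧ v₁' (φ f) = v₁ f := by
  obtain ⟨g, hg0, hg, hrel⟩ := exists_strip D (v₁ f) f hf rfl
  have hgP : φ g ∉ P₁' := fun h => not_mem_of_v₁_eq_zero D hg0 hg (h₁ h)
  have hxP : φ x ∉ P₁' := fun h => x_not_mem D (h₁ h)
  have hg'0 : φ g ≠ 0 := fun h => hgP (h ▸ P₁'.zero_mem)
  have hx'0 : φ x ≠ 0 := fun h => hxP (h ▸ P₁'.zero_mem)
  have hrel' : φ f * φ x ^ (v₁ f) = π' ^ (v₁ f) * φ g := by
    rw [← hπ, ← map_pow, ← map_pow, ← map_mul, ← map_mul, hrel]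
  have hpn : π' ^ (v₁ f) ≠ 0 := pow_ne_zero _ D'.pi_ne
  have hf'0 : φ f ≠ 0 := by
    intro h
    rw [h, zero_mul] at hrel'
    exact mul_ne_zero hpn hg'0 hrel'.symm
  refine ⟨hf'0, ?_⟩
  have hxn : φ x ^ (v₁ f) ≠ 0 := pow_ne_zero _ hx'0
  have e1 := D'.v₁_mul (φ f) (φ x ^ (v₁ f)) hf'0 hxn
  have e2 := D'.v₁_mul (π' ^ (v₁ f)) (φ g) hpn hg'0
  rw [hrel', e2, D'.v₁_pow D'.pi_ne, D'.v₁_pi, D'.v₁_pow hx'0,
    v₁_eq_zero_of_not_mem D' hxP, v₁_eq_zero_of_not_mem D' hgP] at e1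
  omega

/-- `φ` maps `P₁` into `P₁'`. -/
theorem map_mem_P₁ (h₁ : P₁'.comap φ ≤ P₁) {f : A} (hf : f ∈ P₁) : φ f ∈ P₁' := by
  by_cases hf0 : f = 0
  · rw [hf0, map_zero]; exact P₁'.zero_mem
  · obtain ⟨h0, hv⟩ := v₁_map D D' φ hπ h₁ hf0
    exact (D'.mem_P₁ _ h0).2 (by rw [hv]; exact (D.mem_P₁ f hf0).1 hf)

/-- `φ⁻¹ P₁' = P₁`. -/
theorem comap_P₁_eq (h₁ : P₁'.comap φ ≤ P₁) : P₁'.comap φ = P₁ :=
  le_antisymm h₁ fun f hf => map_mem_P₁ D D' φ hπ h₁ hf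

end Two

section Three

variable (D : NodeData A v₁ v₂ P₁ P₂ π x y K) (D' : NodeData A' v₁' v₂' P₁' P₂' π' x' y' K')
  (φ : A →+* A') (hπ : φ π = π') (h₁ : P₁'.comap φ ≤ P₁) (h₂ : P₂'.comap φ ≤ P₂)
include D D' hπ h₁ h₂

/-- **(E0)** for the second branch. -/
theorem v₂_map {f : A} (hf : f ≠ 0) : φ f ≠ 0 ∧ v₂' (φ f) = v₂ f :=
  v₁_map D.symm D'.symm φ hπ h₂ hf

/-- **(E1), general thickness.**  `φ x ^ K' ~ x' ^ K`. -/
theorem associated_pow_x : Associated (φ x ^ K') (x' ^ K) := by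
  obtain ⟨c, hc⟩ := x_mul_eq D
  obtain ⟨c', hc'⟩ := x_mul_eq D'
  have ha : φ x ^ K' * φ c ^ K' = π' ^ (K * K') := by
    rw [← mul_pow, ← map_mul, hc, map_pow, hπ, ← pow_mul]
  have hb : x' ^ K * c' ^ K = π' ^ (K' * K) := by
    rw [← mul_pow, hc', ← pow_mul]
  obtain ⟨hx0, hx1⟩ := v₁_map D D' φ hπ h₁ D.x_ne
  obtain ⟨-, hx2⟩ := v₂_map D D' φ hπ h₁ h₂ D.x_ne
  refine associated_of_vertical D' ha hb ?_ ?_
  · rw [D'.v₁_pow hx0, D'.v₁_pow D'.x_ne, hx1, D.v₁_x, D'.v₁_x, mul_zero, mul_zero]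
  · rw [D'.symm.v₁_pow hx0, D'.symm.v₁_pow D'.x_ne, hx2, v₂_x D, v₂_x D']
    ring

/-- **(E1), general thickness.**  `φ y ^ K' ~ y' ^ K`. -/
theorem associated_pow_y : Associated (φ y ^ K') (y' ^ K) :=
  associated_pow_x D.symm D'.symm φ hπ h₂ h₁

/-- **(E1)** `φ x ~ x'` for equal thickness: `α(x_e) = x' · unit`. -/
theorem associated_x (hK : K' = K) : Associated (φ x) x' := by
  obtain ⟨c, hc⟩ := x_mul_eq D
  obtain ⟨c', hc'⟩ := x_mul_eq D'
  have ha : φ x * φ c = π' ^ K := by rw [← map_mul, hc, map_pow, hπ]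
  obtain ⟨hx0, hx1⟩ := v₁_map D D' φ hπ h₁ D.x_ne
  obtain ⟨-, hx2⟩ := v₂_map D D' φ hπ h₁ h₂ D.x_ne
  refine associated_of_vertical D' ha hc' ?_ ?_
  · rw [hx1, D.v₁_x, D'.v₁_x]
  · rw [hx2, v₂_x D, v₂_x D', hK]

/-- **(E1)** `φ y ~ y'` for equal thickness. -/
theorem associated_y (hK : K' = K) : Associated (φ y) y' :=
  associated_x D.symm D'.symm φ hπ h₂ h₁ hK

/-- `φ` is a local homomorphism: `φ(𝔪) A' ⊆ 𝔪'`. -/
theorem map_maximalIdeal_le (hK : K' = K) :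
    (maximalIdeal A).map φ ≤ maximalIdeal A' := by
  rw [Ideal.map_le_iff_le_comap, D.max_eq, Ideal.span_le]
  have hπ' : π' ∈ maximalIdeal A' := by
    rw [D'.max_eq]; exact Ideal.subset_span (by simp)
  have hx' : x' ∈ maximalIdeal A' := by
    rw [D'.max_eq]; exact Ideal.subset_span (by simp)
  have hy' : y' ∈ maximalIdeal A' := by
    rw [D'.max_eq]; exact Ideal.subset_span (by simp)
  have h1 : φ π ∈ maximalIdeal A' := by rw [hπ]; exact hπ'
  have h2 : φ x ∈ maximalIdeal A' := by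
    obtain ⟨u, hu⟩ := (associated_x D D' φ hπ h₁ h₂ hK).symm
    rw [← hu]
    exact Ideal.mul_mem_right _ _ hx'
  have h3 : φ y ∈ maximalIdeal A' := by
    obtain ⟨u, hu⟩ := (associated_y D D' φ hπ h₁ h₂ hK).symm
    rw [← hu]
    exact Ideal.mul_mem_right _ _ hy'
  intro z hz
  simp only [Set.mem_insert_iff, Set.mem_singleton_iff] at hz
  rcases hz with rfl | rfl | rfl
  · exact Ideal.mem_comap.2 h1
  · exact Ideal.mem_comap.2 h2
  · exact Ideal.mem_comap.2 h3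

/-- **(E2)** The first branch through the node `𝔫'` is unramified over the first branch through
`𝔫`: `𝔪' = φ(𝔪) A' + P₁'`. -/
theorem maximalIdeal_eq₁ (hK : K' = K) :
    maximalIdeal A' = (maximalIdeal A).map φ ⊔ P₁' := by
  apply le_antisymm
  · rw [D'.max_eq, Ideal.span_le]
    have hπm : π ∈ maximalIdeal A := by
      rw [D.max_eq]; exact Ideal.subset_span (by simp)
    have hxm : x ∈ maximalIdeal A := by
      rw [D.max_eq]; exact Ideal.subset_span (by simp)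
    intro z hz
    simp only [Set.mem_insert_iff, Set.mem_singleton_iff] at hz
    rcases hz with rfl | rfl | rfl
    · exact Ideal.mem_sup_left (hπ ▸ Ideal.mem_map_of_mem φ hπm)
    · obtain ⟨u, hu⟩ := associated_x D D' φ hπ h₁ h₂ hK
      rw [← hu]
      exact Ideal.mem_sup_left (Ideal.mul_mem_right _ _ (Ideal.mem_map_of_mem φ hxm))
    · exact Ideal.mem_sup_right (y_mem D')
  · exact sup_le (map_maximalIdeal_le D D' φ hπ h₁ h₂ hK)
      (IsLocalRing.le_maximalIdeal D'.prime₁.ne_top)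

/-- **(E2)** for the second branch: `𝔪' = φ(𝔪) A' + P₂'`. -/
theorem maximalIdeal_eq₂ (hK : K' = K) :
    maximalIdeal A' = (maximalIdeal A).map φ ⊔ P₂' :=
  maximalIdeal_eq₁ D.symm D'.symm φ hπ h₂ h₁ hK

end Three

end Fermat.Agent.T1B.Brandt96
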