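/-
Programme T1B (row 38 / S44), cell R2/BRANDT (owner helper36), part (e) (helper96):
UNRAMIFIEDNESS AT THE NODES, discrete valuation form.

For a node `D : NodeData A v₁ v₂ P₁ P₂ π x y K` in a noetherian local domain `A`, the branch
`A ⧸ P₁` (`P₁ ∋ π, y`) is a discrete valuation ring with uniformiser `x̄`
(`isDVR_quot`, `irreducible_mk_x`): `ord_e := addVal (A ⧸ P₁)` is the order at the node `e` of a
function on the component `X₁`.  For a homomorphism `φ : A → A'` of nodes as in `Node.lean`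
(`φ π = π'`, `φ⁻¹ P_i' ⊆ P_i`):

* `quotMap`                : the induced map `A ⧸ P₁ → A' ⧸ P₁'`;
* `addVal_map_mul`         : `K' · ord_{e'} (φ g) = K · ord_e g`;
* `irreducible_mk_map_x`   : for `K' = K`, `φ x̄` is a uniformiser at `e'` (unramified);
* `addVal_map`             : for `K' = K`, `ord_{e'} (φ g) = ord_e g`.
-/
import Mathlib
import Fermat.Agent.T1B.Brandt96.Node

set_option autoImplicit false
set_option linter.unusedSectionVars false
set_option linter.unusedVariables false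
set_option linter.style.haveILetI false

namespace Fermat.Agent.T1B.Brandt96

open IsLocalRing Fermat.Agent.T1.Peu37.NodeClassGroup

section General

/-- A noetherian local domain whose maximal ideal is generated by a nonzero element `t` is a
discrete valuation ring with uniformiser `t`. -/
theorem isDVR_of_maximalIdeal_eq_span {Q : Type*} [CommRing Q] [IsDomain Q] [IsLocalRing Q]
    [IsNoetherianRing Q] {t : Q} (ht : t ≠ 0) (hmax : maximalIdeal Q = Ideal.span {t}) :
    IsDiscreteValuationRing Q := by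
  have htmem : t ∈ maximalIdeal Q := by
    rw [hmax]
    exact Ideal.mem_span_singleton_self _
  have hnotfield : ¬ IsField Q := by
    intro hF
    obtain ⟨z, hz⟩ := hF.mul_inv_cancel ht
    rw [mem_maximalIdeal, mem_nonunits_iff] at htmem
    exact htmem (IsUnit.of_mul_eq_one z hz)
  have hprinc : (maximalIdeal Q).IsPrincipal := ⟨⟨t, hmax⟩⟩
  exact ((IsDiscreteValuationRing.TFAE Q hnotfield).out 0 4).2 hprinc

/-- Associated elements of a discrete valuation ring have the same valuation. -/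
theorem addVal_eq_of_associated {Q : Type*} [CommRing Q] [IsDomain Q] [IsDiscreteValuationRing Q]
    {a b : Q} (h : Associated a b) :
    IsDiscreteValuationRing.addVal Q a = IsDiscreteValuationRing.addVal Q b := by
  obtain ⟨u, rfl⟩ := h
  rw [IsDiscreteValuationRing.addVal_mul,
    IsDiscreteValuationRing.addVal_eq_zero_iff.2 u.isUnit, add_zero]

/-- The valuation of the image of `g` under a ring homomorphism of discrete valuation rings is
`ord g` times the valuation of the image of a uniformiser. -/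
theorem addVal_map_eq_mul {Q Q' : Type*} [CommRing Q] [IsDomain Q] [IsDiscreteValuationRing Q]
    [CommRing Q'] [IsDomain Q'] [IsDiscreteValuationRing Q'] (ψ : Q →+* Q') {t : Q}
    (ht : Irreducible t) {g : Q} (hg : g ≠ 0) :
    IsDiscreteValuationRing.addVal Q' (ψ g) =
      IsDiscreteValuationRing.addVal Q g * IsDiscreteValuationRing.addVal Q' (ψ t) := by
  obtain ⟨n, u, hu⟩ := IsDiscreteValuationRing.eq_unit_mul_pow_irreducible hg ht
  have hψu : IsUnit (ψ (u : Q)) := u.isUnit.map ψ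
  rw [hu, map_mul, map_pow, IsDiscreteValuationRing.addVal_mul,
    IsDiscreteValuationRing.addVal_mul, IsDiscreteValuationRing.addVal_pow,
    IsDiscreteValuationRing.addVal_pow, IsDiscreteValuationRing.addVal_uniformizer ht,
    IsDiscreteValuationRing.addVal_eq_zero_iff.2 u.isUnit,
    IsDiscreteValuationRing.addVal_eq_zero_iff.2 hψu, zero_add, zero_add, nsmul_eq_mul,
    nsmul_eq_mul, mul_one]

end General

variable {A : Type*} [CommRing A] [IsDomain A] [IsLocalRing A] [IsNoetherianRing A]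
variable {v₁ v₂ : A → ℕ} {P₁ P₂ : Ideal A} {π x y : A} {K : ℕ}

section One

variable (D : NodeData A v₁ v₂ P₁ P₂ π x y K) [hP₁ : P₁.IsPrime]
include D

/-- The quotient by a proper ideal of a local ring is local. -/
theorem isLocalRing_quot : IsLocalRing (A ⧸ P₁) := by
  haveI : Nontrivial (A ⧸ P₁) := Ideal.Quotient.nontrivial_iff.mpr hP₁.ne_top
  exact IsLocalRing.of_surjective' (Ideal.Quotient.mk P₁) Ideal.Quotient.mk_surjective

theorem mk_x_ne_zero : Ideal.Quotient.mk P₁ x ≠ 0 := fun h0 =>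
  x_not_mem D (Ideal.Quotient.eq_zero_iff_mem.1 h0)

/-- The maximal ideal of the branch `A ⧸ P₁` is generated by `x̄`. -/
theorem maximalIdeal_quot_eq :
    haveI := isLocalRing_quot D
    maximalIdeal (A ⧸ P₁) = Ideal.span {Ideal.Quotient.mk P₁ x} := by
  haveI := isLocalRing_quot D
  set q : A →+* A ⧸ P₁ := Ideal.Quotient.mk P₁ with hq
  have hqsurj : Function.Surjective q := Ideal.Quotient.mk_surjective
  have hP1ne : P₁ ≠ ⊤ := hP₁.ne_top
  have hqpi : q π = 0 := Ideal.Quotient.eq_zero_iff_mem.2 (pi_mem D)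
  have hqy : q y = 0 := Ideal.Quotient.eq_zero_iff_mem.2 (y_mem D)
  have hxmax : x ∈ maximalIdeal A := by
    rw [D.max_eq]
    exact Ideal.subset_span (by simp)
  apply le_antisymm
  · intro z hz
    obtain ⟨a, rfl⟩ := hqsurj z
    have ha : a ∈ maximalIdeal A := by
      rw [mem_maximalIdeal, mem_nonunits_iff] at hz ⊢
      intro hau
      exact hz (hau.map q)
    rw [D.max_eq, Ideal.mem_span_insert] at ha
    obtain ⟨c₁, z₁, hz₁, rfl⟩ := ha
    rw [Ideal.mem_span_insert] at hz₁
    obtain ⟨c₂, z₂, hz₂, rfl⟩ := hz₁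
    rw [Ideal.mem_span_singleton] at hz₂
    obtain ⟨c₃, rfl⟩ := hz₂
    rw [map_add, map_add, map_mul, map_mul, map_mul, hqpi, hqy, mul_zero, zero_mul, zero_add,
      add_zero]
    exact Ideal.mem_span_singleton.2 ⟨q c₂, by ring⟩
  · rw [Ideal.span_singleton_le_iff_mem, mem_maximalIdeal, mem_nonunits_iff]
    intro hu
    obtain ⟨z, hz⟩ := hu.exists_right_inv
    obtain ⟨a, rfl⟩ := hqsurj z
    have : x * a - 1 ∈ P₁ := by
      rw [← Ideal.Quotient.eq_zero_iff_mem]
      show q (x * a - 1) = 0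
      rw [map_sub, map_mul, hz, map_one, sub_self]
    have h5 : x * a - 1 ∈ maximalIdeal A := (IsLocalRing.le_maximalIdeal hP1ne) this
    have h6 : x * a ∈ maximalIdeal A := Ideal.mul_mem_right _ _ hxmax
    have h7 : (1 : A) ∈ maximalIdeal A := by
      have := Ideal.sub_mem _ h6 h5
      rwa [sub_sub_cancel] at this
    exact (Ideal.ne_top_iff_one _).1 (maximalIdeal.isMaximal A).ne_top h7

/-- **(E3)** The branch `A ⧸ P₁` of a node is a discrete valuation ring. -/
theorem isDVR_quot : IsDiscreteValuationRing (A ⧸ P₁) := by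
  haveI := isLocalRing_quot D
  haveI : IsNoetherianRing (A ⧸ P₁) :=
    isNoetherianRing_of_surjective A (A ⧸ P₁) (Ideal.Quotient.mk P₁) Ideal.Quotient.mk_surjective
  exact isDVR_of_maximalIdeal_eq_span (mk_x_ne_zero D) (maximalIdeal_quot_eq D)

/-- **(E3)** `x̄` is a uniformiser of the branch `A ⧸ P₁`. -/
theorem irreducible_mk_x : Irreducible (Ideal.Quotient.mk P₁ x) := by
  haveI := isDVR_quot D
  exact (IsDiscreteValuationRing.irreducible_iff_uniformizer _).2 (maximalIdeal_quot_eq D)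

end One

variable {A' : Type*} [CommRing A'] [IsDomain A'] [IsLocalRing A'] [IsNoetherianRing A']
variable {v₁' v₂' : A' → ℕ} {P₁' P₂' : Ideal A'} {π' x' y' : A'} {K' : ℕ}

section Two

variable (D : NodeData A v₁ v₂ P₁ P₂ π x y K) (D' : NodeData A' v₁' v₂' P₁' P₂' π' x' y' K')
  (φ : A →+* A') (hπ : φ π = π') (h₁ : P₁'.comap φ ≤ P₁) (h₂ : P₂'.comap φ ≤ P₂)

/-- The map induced by `φ` on the first branches, `A ⧸ P₁ → A' ⧸ P₁'`. -/
noncomputable def quotMap (D : NodeData A v₁ v₂ P₁ P₂ π x y K)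
    (D' : NodeData A' v₁' v₂' P₁' P₂' π' x' y' K') (φ : A →+* A') (hπ : φ π = π')
    (h₁ : P₁'.comap φ ≤ P₁) : A ⧸ P₁ →+* A' ⧸ P₁' :=
  Ideal.quotientMap P₁' φ (fun _ hf => map_mem_P₁ D D' φ hπ h₁ hf)

@[simp] theorem quotMap_mk (g : A) :
    quotMap D D' φ hπ h₁ (Ideal.Quotient.mk P₁ g) = Ideal.Quotient.mk P₁' (φ g) :=
  Ideal.quotientMap_mk

/-- The induced map on the branches is injective. -/
theorem quotMap_injective : Function.Injective (quotMap D D' φ hπ h₁) := by
  rw [injective_iff_map_eq_zero]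
  intro z hz
  obtain ⟨g, rfl⟩ := Ideal.Quotient.mk_surjective z
  rw [quotMap_mk, Ideal.Quotient.eq_zero_iff_mem] at hz
  exact Ideal.Quotient.eq_zero_iff_mem.2 (h₁ hz)

variable [hP₁ : P₁.IsPrime] [hP₁' : P₁'.IsPrime]
  [IsDiscreteValuationRing (A ⧸ P₁)] [IsDiscreteValuationRing (A' ⧸ P₁')]

include D D' hπ h₁ h₂

/-- `K' · ord_{e'} (φ x̄) = K`. -/
theorem addVal_mk_map_x :
    (K' : ℕ∞) * IsDiscreteValuationRing.addVal (A' ⧸ P₁') (Ideal.Quotient.mk P₁' (φ x)) = K := by
  have h := (associated_pow_x D D' φ hπ h₁ h₂).map (Ideal.Quotient.mk P₁')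
  rw [map_pow, map_pow] at h
  have h' := addVal_eq_of_associated h
  rw [IsDiscreteValuationRing.addVal_pow, IsDiscreteValuationRing.addVal_pow,
    IsDiscreteValuationRing.addVal_uniformizer (irreducible_mk_x D'), nsmul_eq_mul,
    nsmul_eq_mul, mul_one] at h'
  exact h'

/-- **(E4), general thickness.**  `K' · ord_{e'} (φ g) = K · ord_e g`. -/
theorem addVal_map_mul (g : A) :
    (K' : ℕ∞) * IsDiscreteValuationRing.addVal (A' ⧸ P₁') (Ideal.Quotient.mk P₁' (φ g)) =
      (K : ℕ∞) * IsDiscreteValuationRing.addVal (A ⧸ P₁) (Ideal.Quotient.mk P₁ g) := by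
  by_cases hg : g ∈ P₁
  · have hg' : φ g ∈ P₁' := map_mem_P₁ D D' φ hπ h₁ hg
    rw [Ideal.Quotient.eq_zero_iff_mem.2 hg, Ideal.Quotient.eq_zero_iff_mem.2 hg',
      IsDiscreteValuationRing.addVal_zero, IsDiscreteValuationRing.addVal_zero,
      ENat.mul_top (by exact_mod_cast D'.K_pos.ne'), ENat.mul_top (by exact_mod_cast D.K_pos.ne')]
  · have hg0 : Ideal.Quotient.mk P₁ g ≠ 0 := fun h => hg (Ideal.Quotient.eq_zero_iff_mem.1 h)
    have h := addVal_map_eq_mul (quotMap D D' φ hπ h₁) (irreducible_mk_x D) hg0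
    rw [quotMap_mk, quotMap_mk] at h
    rw [h, mul_left_comm, addVal_mk_map_x D D' φ hπ h₁ h₂, mul_comm]

/-- **(E4)** `φ x̄` is a uniformiser of the branch at `e'`: the branch is UNRAMIFIED at the node
(equal thickness). -/
theorem irreducible_mk_map_x (hK : K' = K) : Irreducible (Ideal.Quotient.mk P₁' (φ x)) := by
  have h := (associated_x D D' φ hπ h₁ h₂ hK).map (Ideal.Quotient.mk P₁')
  exact h.symm.irreducible (irreducible_mk_x D')

/-- **(E4)** `ord_{e'} (φ g) = ord_e g` for equal thickness. -/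
theorem addVal_map (hK : K' = K) (g : A) :
    IsDiscreteValuationRing.addVal (A' ⧸ P₁') (Ideal.Quotient.mk P₁' (φ g)) =
      IsDiscreteValuationRing.addVal (A ⧸ P₁) (Ideal.Quotient.mk P₁ g) := by
  by_cases hg : g ∈ P₁
  · have hg' : φ g ∈ P₁' := map_mem_P₁ D D' φ hπ h₁ hg
    rw [Ideal.Quotient.eq_zero_iff_mem.2 hg, Ideal.Quotient.eq_zero_iff_mem.2 hg',
      IsDiscreteValuationRing.addVal_zero, IsDiscreteValuationRing.addVal_zero]
  · have hg0 : Ideal.Quotient.mk P₁ g ≠ 0 := fun h => hg (Ideal.Quotient.eq_zero_iff_mem.1 h)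
    have h := addVal_map_eq_mul (quotMap D D' φ hπ h₁) (irreducible_mk_x D) hg0
    rw [quotMap_mk, quotMap_mk] at h
    rw [h, IsDiscreteValuationRing.addVal_uniformizer
      (irreducible_mk_map_x D D' φ hπ h₁ h₂ hK), mul_one]

/-- **(E4)** The same on the quotient: `ord_{e'} ∘ φ̄ = ord_e`. -/
theorem addVal_quotMap (hK : K' = K) (g : A ⧸ P₁) :
    IsDiscreteValuationRing.addVal (A' ⧸ P₁') (quotMap D D' φ hπ h₁ g) =
      IsDiscreteValuationRing.addVal (A ⧸ P₁) g := by
  obtain ⟨a, rfl⟩ := Ideal.Quotient.mk_surjective g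
  rw [quotMap_mk]
  exact addVal_map D D' φ hπ h₁ h₂ hK a

end Two

end Fermat.Agent.T1B.Brandt96
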