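/-
Programme T1B (row 38 / S44), NODE PLACES (NP1) (helper96, for helper80's R1 and helper36's R2):
THE PLACE OF THE COMPONENT `X₁` CENTRED AT A NODE.

`A` the (noetherian) local ring of the model at a node, `D : NodeData A v₁ v₂ P₁ P₂ π x y K`,
`ρA : A →+* k` the residue map into the function field `k / κ` of the branch `X₁`
(`ker ρA = P₁`, `k = Frac ρA(A)`, `κ ⊆ ρA(A)`).  Then `ρA(A) ≅ A ⧸ P₁` is a discrete valuation ring
(`Dvr.isDVR_quot`) with fraction field `k`, hence the valuation ring of a place of `k / κ`: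

* `nodePlace D ρA hker hfrac hκ : Place κ k`, with valuation ring `ρA.range`;
* `nodePlace_spec`  : `Hol80.NodePlace P₁ ρA (nodePlace …)` (helper80's predicate);
* `ord_nodePlace`   : `ord (ρA a) = addVal (A ⧸ P₁) (mk a)` for `a ∉ P₁` (bridge to `Dvr.addVal_map`);
* `NodePlace.ord_eq`, `NodePlace.unique` : the node place is unique.
-/
import Mathlib
import Fermat.Agent.T1B.Brandt96.Dvr
import Fermat.Agent.T1B.Hol80.SlopePlace

set_option autoImplicit false
set_option linter.unusedSectionVars false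
set_option linter.unusedVariables false
set_option linter.style.haveILetI false

namespace Fermat.Agent.T1B.Brandt96

open AlgebraicCurve IsLocalRing Fermat.Agent.T1.Peu37.NodeClassGroup Fermat.Agent.T1B.Hol80

variable {A : Type*} [CommRing A] [IsDomain A] [IsLocalRing A] [IsNoetherianRing A]
variable {v₁ v₂ : A → ℕ} {P₁ P₂ : Ideal A} {π x y : A} {K : ℕ}
variable {κ k : Type*} [Field κ] [Field k] [Algebra κ k]

section Construction

variable (D : NodeData A v₁ v₂ P₁ P₂ π x y K) (ρA : A →+* k)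
  (hker : ∀ a : A, ρA a = 0 ↔ a ∈ P₁)
  (hfrac : ∀ z : k, ∃ a b : A, ρA b ≠ 0 ∧ z * ρA b = ρA a)
  (hκ : ∀ c : κ, ∃ a : A, ρA a = algebraMap κ k c)

/-- The map induced by `ρA` on the branch `A ⧸ P₁`. -/
def rhoBar (ρA : A →+* k) (hker : ∀ a : A, ρA a = 0 ↔ a ∈ P₁) : A ⧸ P₁ →+* k :=
  Ideal.Quotient.lift P₁ ρA (fun a ha => (hker a).2 ha)

@[simp] theorem rhoBar_mk (a : A) : rhoBar ρA hker (Ideal.Quotient.mk P₁ a) = ρA a :=
  Ideal.Quotient.lift_mk _ _ _

theorem rhoBar_injective : Function.Injective (rhoBar ρA hker) := by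
  rw [injective_iff_map_eq_zero]
  intro z hz
  obtain ⟨a, rfl⟩ := Ideal.Quotient.mk_surjective z
  rw [rhoBar_mk] at hz
  exact Ideal.Quotient.eq_zero_iff_mem.2 ((hker a).1 hz)

include D hker hfrac in
/-- `ρA(A)` is a valuation ring of `k`. -/
theorem mem_or_inv_mem_range (z : k) : z ∈ ρA.range ∨ z⁻¹ ∈ ρA.range := by
  haveI := D.prime₁
  haveI := isDVR_quot D
  by_cases hz : z = 0
  · left; rw [hz]; exact ρA.range.zero_mem
  obtain ⟨a, b, hb, hab⟩ := hfrac z
  obtain ⟨c, hc | hc⟩ := ValuationRing.cond (Ideal.Quotient.mk P₁ a) (Ideal.Quotient.mk P₁ b)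
  · -- `ā c̄ = b̄`: `z⁻¹ = ρ̄ c̄`
    right
    obtain ⟨c, rfl⟩ := Ideal.Quotient.mk_surjective c
    have h1 : ρA a * ρA c = ρA b := by
      have := congrArg (rhoBar ρA hker) hc
      rwa [map_mul, rhoBar_mk, rhoBar_mk, rhoBar_mk] at this
    refine ⟨c, ?_⟩
    have h2 : z * ρA c = 1 := by
      have h3 : (z * ρA c) * ρA b = 1 * ρA b := by
        calc (z * ρA c) * ρA b = (z * ρA b) * ρA c := by ring
          _ = ρA a * ρA c := by rw [hab]
          _ = 1 * ρA b := by rw [h1, one_mul]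
      exact mul_right_cancel₀ hb h3
    exact (eq_inv_of_mul_eq_one_right h2)
  · -- `b̄ c̄ = ā`: `z = ρ̄ c̄`
    left
    obtain ⟨c, rfl⟩ := Ideal.Quotient.mk_surjective c
    have h1 : ρA b * ρA c = ρA a := by
      have := congrArg (rhoBar ρA hker) hc
      rwa [map_mul, rhoBar_mk, rhoBar_mk, rhoBar_mk] at this
    refine ⟨c, ?_⟩
    have h3 : ρA c * ρA b = z * ρA b := by rw [hab, ← h1]; ring
    exact mul_right_cancel₀ hb h3

/-- The valuation ring `ρA(A)` of the node place. -/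
def nodeVS (D : NodeData A v₁ v₂ P₁ P₂ π x y K) (ρA : A →+* k)
    (hker : ∀ a : A, ρA a = 0 ↔ a ∈ P₁)
    (hfrac : ∀ z : k, ∃ a b : A, ρA b ≠ 0 ∧ z * ρA b = ρA a) : ValuationSubring k :=
  { ρA.range with mem_or_inv_mem' := mem_or_inv_mem_range D ρA hker hfrac }

theorem mem_nodeVS {z : k} : z ∈ nodeVS D ρA hker hfrac ↔ ∃ a : A, ρA a = z := Iff.rfl

/-- The surjection `A ⧸ P₁ → ρA(A)`. -/
def toNodeVS (D : NodeData A v₁ v₂ P₁ P₂ π x y K) (ρA : A →+* k)
    (hker : ∀ a : A, ρA a = 0 ↔ a ∈ P₁)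
    (hfrac : ∀ z : k, ∃ a b : A, ρA b ≠ 0 ∧ z * ρA b = ρA a) :
    A ⧸ P₁ →+* ↥(nodeVS D ρA hker hfrac) :=
  (rhoBar ρA hker).codRestrict (nodeVS D ρA hker hfrac).toSubring (fun q => by
    obtain ⟨a, rfl⟩ := Ideal.Quotient.mk_surjective q
    exact ⟨a, (rhoBar_mk ρA hker a).symm⟩)

theorem coe_toNodeVS (a : A) :
    ((toNodeVS D ρA hker hfrac (Ideal.Quotient.mk P₁ a) : ↥(nodeVS D ρA hker hfrac)) : k) =
      ρA a := rhoBar_mk ρA hker a

theorem toNodeVS_surjective : Function.Surjective (toNodeVS D ρA hker hfrac) := by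
  rintro ⟨z, a, rfl⟩
  exact ⟨Ideal.Quotient.mk P₁ a, Subtype.ext (coe_toNodeVS D ρA hker hfrac a)⟩

include D hker in
/-- A product `a c` with `a ∈ 𝔪` is not `≡ 1` modulo `P₁`. -/
theorem rho_mul_ne_one {a : A} (ha : a ∈ maximalIdeal A) (c : A) : ρA (a * c) ≠ 1 := by
  intro h
  have h1 : a * c - 1 ∈ P₁ := by
    rw [← hker, map_sub, h, map_one, sub_self]
  have h5 : a * c - 1 ∈ maximalIdeal A := (IsLocalRing.le_maximalIdeal D.prime₁.ne_top) h1
  have h6 : a * c ∈ maximalIdeal A := Ideal.mul_mem_right _ _ ha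
  have h7 : (1 : A) ∈ maximalIdeal A := by
    have := Ideal.sub_mem _ h6 h5
    rwa [sub_sub_cancel] at this
  exact (Ideal.ne_top_iff_one _).1 (maximalIdeal.isMaximal A).ne_top h7

theorem x_mem_maximalIdeal (D : NodeData A v₁ v₂ P₁ P₂ π x y K) : x ∈ maximalIdeal A := by
  rw [D.max_eq]
  exact Ideal.subset_span (by simp)

/-- **(NP1)** The place of `k / κ` centred at the node, with valuation ring `ρA(A)`. -/
noncomputable def nodePlace (D : NodeData A v₁ v₂ P₁ P₂ π x y K) (ρA : A →+* k)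
    (hker : ∀ a : A, ρA a = 0 ↔ a ∈ P₁)
    (hfrac : ∀ z : k, ∃ a b : A, ρA b ≠ 0 ∧ z * ρA b = ρA a)
    (hκ : ∀ c : κ, ∃ a : A, ρA a = algebraMap κ k c) : Place κ k where
  toValuationSubring := nodeVS D ρA hker hfrac
  algebraMap_mem' := fun c => hκ c
  ne_top' := by
    intro htop
    have hx0 : ρA x ≠ 0 := fun h0 => x_not_mem D ((hker x).1 h0)
    have hmem : (ρA x)⁻¹ ∈ nodeVS D ρA hker hfrac := by rw [htop]; exact ValuationSubring.mem_top _
    obtain ⟨c, hc⟩ := hmem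
    refine rho_mul_ne_one D ρA hker (x_mem_maximalIdeal D) c ?_
    rw [map_mul, hc, mul_inv_cancel₀ hx0]
  isPrincipalIdealRing' := by
    haveI := D.prime₁
    haveI := isDVR_quot D
    exact IsPrincipalIdealRing.of_surjective (toNodeVS D ρA hker hfrac)
      (toNodeVS_surjective D ρA hker hfrac)

@[simp] theorem nodePlace_toValuationSubring :
    (nodePlace D ρA hker hfrac hκ).toValuationSubring = nodeVS D ρA hker hfrac := rfl

/-- **(NP1)** `nodePlace` is a node place in the sense of `Hol80.NodePlace`. -/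
theorem nodePlace_spec : NodePlace P₁ ρA (nodePlace D ρA hker hfrac hκ) where
  ker := hker
  mem := fun a => ⟨a, rfl⟩
  pos := by
    intro a ha hne
    set v := nodePlace D ρA hker hfrac hκ with hv
    have hmemV : ρA a ∈ v.toValuationSubring := ⟨a, rfl⟩
    have hnu : (⟨ρA a, hmemV⟩ : v.toValuationSubring) ∈
        IsLocalRing.maximalIdeal v.toValuationSubring := by
      rw [IsLocalRing.mem_maximalIdeal, mem_nonunits_iff]
      intro hu
      obtain ⟨⟨w, c, hc⟩, hw⟩ := hu.exists_right_inv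
      have h1 : ρA a * w = 1 := congrArg Subtype.val hw
      refine rho_mul_ne_one D ρA hker ha c ?_
      rw [map_mul, hc, h1]
    rcases (Fermat.Agent.X0.FF.mem_maximalIdeal_iff v _).1 hnu with h0 | hpos
    · exact absurd (congrArg Subtype.val h0) hne
    · exact hpos
  frac := hfrac

end Construction

/-! ### Uniqueness of the node place -/

section Unique

variable (D : NodeData A v₁ v₂ P₁ P₂ π x y K) {ρA : A →+* k} {v v' : Place κ k}
include D

/-- The order at a node place of the residue of `a ∉ P₁`: `ρA a = ρA x ^ i · ρA w`, `w` a unit, and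
the order is `i`, for EVERY node place. -/
theorem NodePlace.exists_rep (H : NodePlace P₁ ρA v) {a : A} (ha : a ∉ P₁) :
    ∃ (i : ℕ) (w : A), IsUnit w ∧ ρA a = ρA x ^ i * ρA w ∧
      ∀ v'' : Place κ k, NodePlace P₁ ρA v'' → v''.ord (ρA a) = i := by
  have hna := H.ord_nonneg a
  obtain ⟨i, w, hw, hiw⟩ := H.exists_pow_mul_unit D (v.ord (ρA a)).toNat a ha (by omega)
  refine ⟨i, w, hw, hiw, fun v'' H'' => ?_⟩
  have hx0 := H''.rho_x_ne D
  have ha0 : ρA a ≠ 0 := fun h0 => ha ((H.ker a).1 h0)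
  have hw0 : ρA w ≠ 0 := by
    intro h0; rw [hiw, h0, mul_zero] at ha0; exact ha0 rfl
  rw [hiw, v''.ord_mul (pow_ne_zero i hx0) hw0, Place.ord_pow', H''.ord_x D, H''.ord_unit hw,
    add_zero, mul_one]

/-- Two node places (same node, same branch) have the same order function. -/
theorem NodePlace.ord_eq (H : NodePlace P₁ ρA v) (H' : NodePlace P₁ ρA v') (z : k) :
    v.ord z = v'.ord z := by
  by_cases hz : z = 0
  · rw [hz, Place.ord_zero, Place.ord_zero]
  obtain ⟨a, b, hb, hab⟩ := H.frac z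
  have ha0 : ρA a ≠ 0 := by rw [← hab]; exact mul_ne_zero hz hb
  have haP : a ∉ P₁ := fun h => ha0 ((H.ker a).2 h)
  have hbP : b ∉ P₁ := fun h => hb ((H.ker b).2 h)
  obtain ⟨i, w, hw, hiw, hi⟩ := NodePlace.exists_rep D H haP
  obtain ⟨j, w', hw', hjw, hj⟩ := NodePlace.exists_rep D H hbP
  have e1 : v.ord z + v.ord (ρA b) = v.ord (ρA a) := by rw [← hab, v.ord_mul hz hb]
  have e2 : v'.ord z + v'.ord (ρA b) = v'.ord (ρA a) := by rw [← hab, v'.ord_mul hz hb]
  rw [hi v H, hj v H] at e1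
  rw [hi v' H', hj v' H'] at e2
  omega

/-- **The node place is unique.** -/
theorem NodePlace.unique (H : NodePlace P₁ ρA v) (H' : NodePlace P₁ ρA v') : v = v' := by
  apply Place.ext
  ext z
  rw [Fermat.Agent.X0.FF.mem_iff_ord_nonneg, Fermat.Agent.X0.FF.mem_iff_ord_nonneg,
    NodePlace.ord_eq D H H' z]

end Unique

section Bridge

variable (D : NodeData A v₁ v₂ P₁ P₂ π x y K) {ρA : A →+* k} {v : Place κ k}
  [hP₁ : P₁.IsPrime] [IsDiscreteValuationRing (A ⧸ P₁)]
include D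

/-- **(NP1), bridge to `Dvr.lean`.**  At a node place the order of `ρA a` (`a ∉ P₁`) is the
valuation of `a` in the branch `A ⧸ P₁`. -/
theorem NodePlace.ord_eq_addVal (H : NodePlace P₁ ρA v) {a : A} (ha : a ∉ P₁) :
    ∃ n : ℕ, IsDiscreteValuationRing.addVal (A ⧸ P₁) (Ideal.Quotient.mk P₁ a) = n ∧
      v.ord (ρA a) = n := by
  obtain ⟨i, w, hw, hiw, hi⟩ := NodePlace.exists_rep D H ha
  refine ⟨i, ?_, hi v H⟩
  have hmk : Ideal.Quotient.mk P₁ a = Ideal.Quotient.mk P₁ x ^ i * Ideal.Quotient.mk P₁ w := by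
    apply rhoBar_injective ρA H.ker
    rw [map_mul, map_pow, rhoBar_mk, rhoBar_mk, rhoBar_mk, hiw]
  rw [hmk, IsDiscreteValuationRing.addVal_mul, IsDiscreteValuationRing.addVal_pow,
    IsDiscreteValuationRing.addVal_uniformizer (irreducible_mk_x D),
    IsDiscreteValuationRing.addVal_eq_zero_iff.2 (hw.map (Ideal.Quotient.mk P₁)), add_zero,
    nsmul_eq_mul, mul_one]

end Bridge

end Fermat.Agent.T1B.Brandt96
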