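/-
Programme T1B (row 38 / S44), NODE PLACES (NP2) (helper96, for helper80's R1 and helper36's R2):
THE FAMILY OF NODE PLACES OF ONE CHART, in helper37's `NodeNF37/Local` vocabulary
(`iota`, `vv`, `PP`, `BranchHyp` on `Localization.AtPrime 𝔪`).

One chart `B ⊂ F`, branch `O₁` with uniformiser `π`, residue map `res₁ : O₁ →+* k` into the function
field `k / κ` of the component `X₁`; `resB = res₁ ∘ (B → O₁)`.  Chart-level hypotheses:
`hfracB` (`k` is the fraction field of `resB(B)`), `hκB` (`κ ⊆ resB(B)`).  For nodes `𝔪 e` (`e : E`)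
with `NodeData` on `Localization.AtPrime (𝔪 e)`:

* `rhoLoc_eq_zero_iff` : `ker (res₁ ∘ ι_e) = PP O₁` (automatic);
* `nodePlaces … : E → Place κ k` and
* `nodePlaces_spec` : `∀ e, NodePlace (PP … (H₁ e)) (res₁.comp (toO O₁ (iota …) (iota_mem …))) (nodePlaces … e)`
  — literally the hypothesis `HP` of `Hol80.exists_const_residue`.
-/
import Mathlib
import Fermat.Agent.T1B.Brandt96.NodePlace
import Fermat.Agent.T1B.NodeNF37.Local

set_option autoImplicit false
set_option linter.unusedSectionVars false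
set_option linter.unusedVariables false
set_option linter.style.haveILetI false

namespace Fermat.Agent.T1B.Brandt96

open AlgebraicCurve IsLocalRing Fermat.Agent.T1.Peu37.NodeClassGroup Fermat.Agent.T1B.Hol80
  Fermat.Agent.T1B.NodeNF37.Local Fermat.Agent.T1B.NodeNF37.UnifOrd

variable {B F : Type*} [CommRing B] [IsDomain B] [Field F] [Algebra B F]
variable {κ k : Type*} [Field κ] [Field k] [Algebra κ k]

section OneNode

variable (hg : Function.Injective (algebraMap B F)) {π : B} {O₁ : ValuationSubring F}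
  (𝔪 : Ideal B) [h𝔪 : 𝔪.IsPrime] (H₁ : BranchHyp (algebraMap B F) 𝔪 O₁ π)
  (res₁ : ↥O₁ →+* k) (hres : ∀ z : ↥O₁, ¬ IsUnit z → res₁ z = 0)

/-- The residue map of the local ring at `𝔪` along the branch `O₁` (the `ρA` of `NodePlace`). -/
noncomputable abbrev rhoLoc : Localization.AtPrime 𝔪 →+* k :=
  res₁.comp (toO O₁ (iota (algebraMap B F) hg 𝔪) (iota_mem (algebraMap B F) hg 𝔪 H₁))

/-- The residue map of the chart along the branch `O₁`. -/
noncomputable abbrev resChart (hle : ∀ b : B, algebraMap B F b ∈ O₁) : B →+* k :=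
  res₁.comp (toO O₁ (algebraMap B F) hle)

theorem rhoLoc_algebraMap (hle : ∀ b : B, algebraMap B F b ∈ O₁) (b : B) :
    rhoLoc hg 𝔪 H₁ res₁ (algebraMap B (Localization.AtPrime 𝔪) b) = resChart res₁ hle b := by
  show res₁ _ = res₁ _
  congr 1
  exact Subtype.ext (iota_algebraMap (algebraMap B F) hg 𝔪 b)

include hres in
/-- **(hker)** The kernel of the residue map on `B_𝔪` is the vertical prime `PP O₁`. -/
theorem rhoLoc_eq_zero_iff (a : Localization.AtPrime 𝔪) :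
    rhoLoc hg 𝔪 H₁ res₁ a = 0 ↔ a ∈ PP (algebraMap B F) hg 𝔪 H₁ := by
  set ι := iota (algebraMap B F) hg 𝔪 with hι
  have hmem : ∀ a, ι a ∈ O₁ := iota_mem (algebraMap B F) hg 𝔪 H₁
  constructor
  · intro h0
    rw [mem_PP]
    by_cases hz : ι a = 0
    · exact ⟨0, O₁.zero_mem, by rw [hz, mul_zero]⟩
    · -- `ι a` is not a unit of `O₁`
      have hnu : (ι a)⁻¹ ∉ O₁ := by
        intro hinv
        have hu : IsUnit (toO O₁ ι hmem a) := by
          refine IsUnit.of_mul_eq_one (⟨(ι a)⁻¹, hinv⟩ : ↥O₁) (Subtype.ext ?_)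
          show ι a * (ι a)⁻¹ = 1
          exact mul_inv_cancel₀ hz
        exact (hu.map res₁).ne_zero h0
      exact H₁.unif.unif (ι a) (hmem a) hnu
  · rintro ⟨c, hc, hac⟩
    have hπmem : algebraMap B F π ∈ O₁ := H₁.unif.mem
    have hπnu : ¬ IsUnit (⟨algebraMap B F π, hπmem⟩ : ↥O₁) := by
      intro hu
      obtain ⟨⟨w, hw⟩, hw1⟩ := hu.exists_right_inv
      have h1 : algebraMap B F π * w = 1 := congrArg Subtype.val hw1
      have : (algebraMap B F π)⁻¹ = w := (eq_inv_of_mul_eq_one_right h1).symm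
      exact H₁.unif.nonunit (this ▸ hw)
    have hfac : toO O₁ ι hmem a = (⟨algebraMap B F π, hπmem⟩ : ↥O₁) * ⟨c, hc⟩ :=
      Subtype.ext hac
    show res₁ (toO O₁ ι hmem a) = 0
    rw [hfac, map_mul, hres _ hπnu, zero_mul]

variable (hle : ∀ b : B, algebraMap B F b ∈ O₁)
  (hfracB : ∀ z : k, ∃ a b : B, resChart res₁ hle b ≠ 0 ∧
    z * resChart res₁ hle b = resChart res₁ hle a)
  (hκB : ∀ c : κ, ∃ b : B, resChart res₁ hle b = algebraMap κ k c)

include hfracB in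
/-- **(hfrac)** at the node, from the chart. -/
theorem rhoLoc_frac (z : k) : ∃ a b : Localization.AtPrime 𝔪,
    rhoLoc hg 𝔪 H₁ res₁ b ≠ 0 ∧ z * rhoLoc hg 𝔪 H₁ res₁ b = rhoLoc hg 𝔪 H₁ res₁ a := by
  obtain ⟨a, b, hb, hab⟩ := hfracB z
  refine ⟨algebraMap B _ a, algebraMap B _ b, ?_, ?_⟩
  · rw [rhoLoc_algebraMap hg 𝔪 H₁ res₁ hle]; exact hb
  · rw [rhoLoc_algebraMap hg 𝔪 H₁ res₁ hle, rhoLoc_algebraMap hg 𝔪 H₁ res₁ hle]; exact hab

include hκB in
/-- **(hκ)** at the node, from the chart. -/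
theorem rhoLoc_const (c : κ) : ∃ a : Localization.AtPrime 𝔪,
    rhoLoc hg 𝔪 H₁ res₁ a = algebraMap κ k c := by
  obtain ⟨b, hb⟩ := hκB c
  exact ⟨algebraMap B _ b, by rw [rhoLoc_algebraMap hg 𝔪 H₁ res₁ hle]; exact hb⟩

end OneNode

section Family

variable [IsNoetherianRing B]
variable (hg : Function.Injective (algebraMap B F)) (π : B) (O₁ O₂ : ValuationSubring F)
  {E : Type*} (𝔪 : E → Ideal B) [∀ e, (𝔪 e).IsPrime]
  (H₁ : ∀ e, BranchHyp (algebraMap B F) (𝔪 e) O₁ π)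
  (H₂ : ∀ e, BranchHyp (algebraMap B F) (𝔪 e) O₂ π)
  (K : ℕ) (x y : ∀ e, Localization.AtPrime (𝔪 e))
  (D : ∀ e, NodeData (Localization.AtPrime (𝔪 e))
    (vv (algebraMap B F) hg (𝔪 e) O₁ π) (vv (algebraMap B F) hg (𝔪 e) O₂ π)
    (PP (algebraMap B F) hg (𝔪 e) (H₁ e)) (PP (algebraMap B F) hg (𝔪 e) (H₂ e))
    (algebraMap B (Localization.AtPrime (𝔪 e)) π) (x e) (y e) K)
  (res₁ : ↥O₁ →+* k) (hres : ∀ z : ↥O₁, ¬ IsUnit z → res₁ z = 0)
  (hle : ∀ b : B, algebraMap B F b ∈ O₁)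
  (hfracB : ∀ z : k, ∃ a b : B, resChart res₁ hle b ≠ 0 ∧
    z * resChart res₁ hle b = resChart res₁ hle a)
  (hκB : ∀ c : κ, ∃ b : B, resChart res₁ hle b = algebraMap κ k c)

/-- **(NP2)** The node places of one chart. -/
noncomputable def nodePlaces : E → Place κ k := fun e =>
  haveI : IsNoetherianRing (Localization.AtPrime (𝔪 e)) :=
    IsLocalization.isNoetherianRing (𝔪 e).primeCompl _ inferInstance
  nodePlace (D e) (rhoLoc hg (𝔪 e) (H₁ e) res₁)
    (rhoLoc_eq_zero_iff hg (𝔪 e) (H₁ e) res₁ hres)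
    (rhoLoc_frac hg (𝔪 e) (H₁ e) res₁ hle hfracB)
    (rhoLoc_const hg (𝔪 e) (H₁ e) res₁ hle hκB)

/-- **(NP2)** They are node places: literally the hypothesis `HP` of
`Hol80.exists_const_residue`. -/
theorem nodePlaces_spec (e : E) :
    NodePlace (PP (algebraMap B F) hg (𝔪 e) (H₁ e))
      (res₁.comp (toO O₁ (iota (algebraMap B F) hg (𝔪 e))
        (iota_mem (algebraMap B F) hg (𝔪 e) (H₁ e))))
      (nodePlaces hg π O₁ O₂ 𝔪 H₁ H₂ K x y D res₁ hres hle hfracB hκB e) := by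
  haveI : IsNoetherianRing (Localization.AtPrime (𝔪 e)) :=
    IsLocalization.isNoetherianRing (𝔪 e).primeCompl _ inferInstance
  exact nodePlace_spec (D e) (rhoLoc hg (𝔪 e) (H₁ e) res₁)
    (rhoLoc_eq_zero_iff hg (𝔪 e) (H₁ e) res₁ hres)
    (rhoLoc_frac hg (𝔪 e) (H₁ e) res₁ hle hfracB)
    (rhoLoc_const hg (𝔪 e) (H₁ e) res₁ hle hκB)

/-- Any other family of node places coincides with `nodePlaces`. -/
theorem eq_nodePlaces (v : E → Place κ k)
    (HP : ∀ e, NodePlace (PP (algebraMap B F) hg (𝔪 e) (H₁ e))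
      (res₁.comp (toO O₁ (iota (algebraMap B F) hg (𝔪 e))
        (iota_mem (algebraMap B F) hg (𝔪 e) (H₁ e)))) (v e)) :
    v = nodePlaces hg π O₁ O₂ 𝔪 H₁ H₂ K x y D res₁ hres hle hfracB hκB := by
  funext e
  haveI : IsNoetherianRing (Localization.AtPrime (𝔪 e)) :=
    IsLocalization.isNoetherianRing (𝔪 e).primeCompl _ inferInstance
  exact NodePlace.unique (D e) (HP e)
    (nodePlaces_spec hg π O₁ O₂ 𝔪 H₁ H₂ K x y D res₁ hres hle hfracB hκB e)

end Family

end Fermat.Agent.T1B.Brandt96
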