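/-
Programme T1B (row 38 / S44), NODE PLACES, top level (helper96): THE CENTRE OF A PLACE OF THE
COMPONENT `X₁` ON A CHART OF THE MODEL.

One chart `B ⊂ F` of the nodal model (`Hc : ChartHyp π O₁ O₂`, helper80), the residue map
`res₁ : O₁ →+* k` of the branch `X₁` (`hres` : nonunits go to `0`) into a field `k / κ` (possibly
BIGGER than the residue field of `O₁`, e.g. the function field over `κ̄` while `B` lives at a finite
level), and a place `v` of `k / κ` with a centre on the chart: `hcen : resChart(B) ⊆ O_v`.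

* `cen`                 : the centre `𝔫 = {b | resChart b ∈ 𝔪_v}`, a prime of `B`;
* `branchHyp_cen`       : the branch `O₁` passes through `𝔫` (`BranchHyp`; automatic);
* `rhoLoc_mem`, `rhoLoc_pos` : `ρA = res₁ ∘ ι_𝔫 : B_𝔫 → k` has values in `O_v` and maps `𝔫 B_𝔫` to
  elements of positive order — with `NodePlaces.rhoLoc_eq_zero_iff` these are the hypotheses
  `ker, mem, pos` of `Unif77.nodePlaceW_of_res` (and of `Hol80.NodePlaceW`);
* `cen_isMaximal`       : the centre is maximal if `v` has degree `1` and `κ` is algebraic over `𝔽_p`;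
* `nodePlaceW_of_centre`: if moreover the second branch passes through `𝔫`, then `𝔫` is a node
  (`hN : NodalChartHyp π O₁ O₂ K`) and `v` is a weak node place at it.
-/
import Mathlib
import Fermat.Agent.T1B.Brandt96.NodePlaces
import Fermat.Agent.T1B.Hol80.NodalChartHyp
import Fermat.Agent.T1B.Unif77.Frac

set_option autoImplicit false
set_option linter.unusedSectionVars false
set_option linter.unusedVariables false
set_option linter.style.haveILetI false

namespace Fermat.Agent.T1B.Brandt96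

open AlgebraicCurve IsLocalRing Fermat.Agent.T1.Peu37.NodeClassGroup Fermat.Agent.T1B.Hol80
  Fermat.Agent.T1B.NodeNF37.Local Fermat.Agent.T1B.NodeNF37.UnifOrd

section Algebraic

/-- A nonzero element of a field, algebraic over `𝔽_p`, is a root of unity. -/
theorem exists_pow_eq_one_of_isAlgebraic_zmod {L : Type*} [Field L] (p : ℕ) [Fact p.Prime]
    [Algebra (ZMod p) L] {c : L} (hc : IsAlgebraic (ZMod p) c) (hc0 : c ≠ 0) :
    ∃ m : ℕ, 0 < m ∧ c ^ m = 1 := by
  have hfg : (Algebra.adjoin (ZMod p) {c}).toSubmodule.FG := hc.isIntegral.fg_adjoin_singleton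
  haveI : Module.Finite (ZMod p) ↥(Algebra.adjoin (ZMod p) {c}) :=
    Module.Finite.iff_fg.2 hfg
  haveI : Finite ↥(Algebra.adjoin (ZMod p) {c}) := Module.finite_of_finite (ZMod p)
  have hcmem : c ∈ Algebra.adjoin (ZMod p) {c} := Algebra.subset_adjoin (Set.mem_singleton c)
  let f : ℕ → ↥(Algebra.adjoin (ZMod p) {c}) := fun n => ⟨c ^ n, Subalgebra.pow_mem _ hcmem n⟩
  obtain ⟨i, j, hij, hfij⟩ := Finite.exists_ne_map_eq_of_infinite f
  have hpow : c ^ i = c ^ j := congrArg Subtype.val hfij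
  rcases Nat.lt_or_gt_of_ne hij with h | h
  · refine ⟨j - i, by omega, ?_⟩
    have h1 : c ^ i * c ^ (j - i) = c ^ i * 1 := by
      rw [← pow_add, Nat.add_sub_cancel' h.le, mul_one, hpow]
    exact mul_left_cancel₀ (pow_ne_zero i hc0) h1
  · refine ⟨i - j, by omega, ?_⟩
    have h1 : c ^ j * c ^ (i - j) = c ^ j * 1 := by
      rw [← pow_add, Nat.add_sub_cancel' h.le, mul_one, hpow]
    exact mul_left_cancel₀ (pow_ne_zero j hc0) h1

end Algebraic

variable {B F : Type*} [CommRing B] [IsDomain B] [Field F] [Algebra B F]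
variable {κ k : Type*} [Field κ] [Field k] [Algebra κ k]

section Centre

variable {π : B} {O₁ O₂ : ValuationSubring F} (Hc : ChartHyp π O₁ O₂)
  (res₁ : ↥O₁ →+* k) (hres : ∀ z : ↥O₁, ¬ IsUnit z → res₁ z = 0)
  (v : Place κ k) (hcen : ∀ b : B, resChart res₁ Hc.le₁ b ∈ v.toValuationSubring)

/-- The centre on the chart `B` of a place `v` of the component `X₁`. -/
noncomputable def cen : Ideal B := centre v (resChart res₁ Hc.le₁) hcen

instance cen_isPrime : (cen Hc res₁ v hcen).IsPrime := centre_isPrime v _ hcen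

theorem mem_cen_iff (b : B) : b ∈ cen Hc res₁ v hcen ↔
    resChart res₁ Hc.le₁ b = 0 ∨ 0 < v.ord (resChart res₁ Hc.le₁ b) := by
  show toPlaceRing v (resChart res₁ Hc.le₁) hcen b ∈
    IsLocalRing.maximalIdeal ↥v.toValuationSubring ↔ _
  rw [Fermat.Agent.X0.FF.mem_maximalIdeal_iff]
  constructor
  · rintro (h | h)
    · exact Or.inl (congrArg Subtype.val h)
    · exact Or.inr h
  · rintro (h | h)
    · exact Or.inl (Subtype.ext h)
    · exact Or.inr h

theorem resChart_ne_zero_of_notMem {b : B} (hb : b ∉ cen Hc res₁ v hcen) :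
    resChart res₁ Hc.le₁ b ≠ 0 := fun h0 => hb ((mem_cen_iff Hc res₁ v hcen b).2 (Or.inl h0))

theorem ord_resChart_of_notMem {b : B} (hb : b ∉ cen Hc res₁ v hcen) :
    v.ord (resChart res₁ Hc.le₁ b) = 0 :=
  ord_eq_zero_of_notMem_centre v (resChart res₁ Hc.le₁) hcen hb

include hres in
/-- The uniformiser `π` is killed by the residue map. -/
theorem resChart_pi_mul (c : F) (hc : c ∈ O₁) (b : B)
    (hbc : algebraMap B F b = algebraMap B F π * c) : resChart res₁ Hc.le₁ b = 0 := by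
  have hπmem : algebraMap B F π ∈ O₁ := Hc.le₁ π
  have hπnu : ¬ IsUnit (⟨algebraMap B F π, hπmem⟩ : ↥O₁) := by
    intro hu
    obtain ⟨⟨w, hw⟩, hw1⟩ := hu.exists_right_inv
    have h1 : algebraMap B F π * w = 1 := congrArg Subtype.val hw1
    have : (algebraMap B F π)⁻¹ = w := (eq_inv_of_mul_eq_one_right h1).symm
    exact Hc.unif₁.nonunit (this ▸ hw)
  have hfac : toO O₁ (algebraMap B F) Hc.le₁ b =
      (⟨algebraMap B F π, hπmem⟩ : ↥O₁) * ⟨c, hc⟩ := Subtype.ext hbc
  show res₁ (toO O₁ (algebraMap B F) Hc.le₁ b) = 0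
  rw [hfac, map_mul, hres _ hπnu, zero_mul]

include hres in
/-- **The first branch passes through the centre.** -/
theorem branchHyp_cen : BranchHyp (algebraMap B F) (cen Hc res₁ v hcen) O₁ π where
  le := Hc.le₁
  unif := Hc.unif₁
  on := by
    rintro e he ⟨c, hc, hec⟩
    exact resChart_ne_zero_of_notMem Hc res₁ v hcen he (resChart_pi_mul Hc res₁ hres c hc e hec)

include hres in
theorem not_off_cen : ¬ Off π O₁ (cen Hc res₁ v hcen) := by
  rintro ⟨e, he, c, hc, hec⟩
  exact (branchHyp_cen Hc res₁ hres v hcen).on e he ⟨c, hc, hec⟩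

variable (H₁ : BranchHyp (algebraMap B F) (cen Hc res₁ v hcen) O₁ π)

/-- **(mem)** The residue map of the local ring at the centre has values in `O_v`. -/
theorem rhoLoc_mem (a : Localization.AtPrime (cen Hc res₁ v hcen)) :
    rhoLoc Hc.inj (cen Hc res₁ v hcen) H₁ res₁ a ∈ v.toValuationSubring := by
  obtain ⟨b, d, hd, hab, -⟩ := exists_frac (algebraMap B F) Hc.inj (cen Hc res₁ v hcen) a
  have h1 := congrArg (rhoLoc Hc.inj (cen Hc res₁ v hcen) H₁ res₁) hab
  rw [map_mul, rhoLoc_algebraMap Hc.inj _ H₁ res₁ Hc.le₁,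
    rhoLoc_algebraMap Hc.inj _ H₁ res₁ Hc.le₁] at h1
  have hd0 := resChart_ne_zero_of_notMem Hc res₁ v hcen hd
  have hdo := ord_resChart_of_notMem Hc res₁ v hcen hd
  by_cases ha0 : rhoLoc Hc.inj (cen Hc res₁ v hcen) H₁ res₁ a = 0
  · rw [ha0]; exact v.toValuationSubring.zero_mem
  · apply Fermat.Agent.X0.FF.mem_of_ord_nonneg
    have h2 := v.ord_mul ha0 hd0
    rw [h1, hdo, add_zero] at h2
    rw [← h2]
    exact Fermat.Agent.X0.FF.ord_nonneg_of_mem v (hcen b)

/-- **(pos)** The maximal ideal of the local ring at the centre goes to elements of positive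
order. -/
theorem rhoLoc_pos (a : Localization.AtPrime (cen Hc res₁ v hcen))
    (ha : a ∈ maximalIdeal (Localization.AtPrime (cen Hc res₁ v hcen)))
    (ha0 : rhoLoc Hc.inj (cen Hc res₁ v hcen) H₁ res₁ a ≠ 0) :
    1 ≤ v.ord (rhoLoc Hc.inj (cen Hc res₁ v hcen) H₁ res₁ a) := by
  obtain ⟨b, d, hd, hab, -⟩ := exists_frac (algebraMap B F) Hc.inj (cen Hc res₁ v hcen) a
  have h1 := congrArg (rhoLoc Hc.inj (cen Hc res₁ v hcen) H₁ res₁) hab
  rw [map_mul, rhoLoc_algebraMap Hc.inj _ H₁ res₁ Hc.le₁,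
    rhoLoc_algebraMap Hc.inj _ H₁ res₁ Hc.le₁] at h1
  have hd0 := resChart_ne_zero_of_notMem Hc res₁ v hcen hd
  have hdo := ord_resChart_of_notMem Hc res₁ v hcen hd
  -- `b ∈ 𝔫`
  have hbmem : b ∈ cen Hc res₁ v hcen := by
    have h2 : algebraMap B (Localization.AtPrime (cen Hc res₁ v hcen)) b ∈
        maximalIdeal (Localization.AtPrime (cen Hc res₁ v hcen)) := by
      rw [← hab]; exact Ideal.mul_mem_right _ _ ha
    exact (IsLocalization.AtPrime.to_map_mem_maximal_iff _ (cen Hc res₁ v hcen) b).1 h2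
  have hb0 : resChart res₁ Hc.le₁ b ≠ 0 := by rw [← h1]; exact mul_ne_zero ha0 hd0
  have hbpos : 0 < v.ord (resChart res₁ Hc.le₁ b) := by
    rcases (mem_cen_iff Hc res₁ v hcen b).1 hbmem with h | h
    · exact absurd h hb0
    · exact h
  have h2 := v.ord_mul ha0 hd0
  rw [h1, hdo, add_zero] at h2
  omega

end Centre

section Maximal

variable {π : B} {O₁ O₂ : ValuationSubring F} (Hc : ChartHyp π O₁ O₂)
  (res₁ : ↥O₁ →+* k) (v : Place κ k)
  (hcen : ∀ b : B, resChart res₁ Hc.le₁ b ∈ v.toValuationSubring)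

/-- **The centre is a maximal ideal** when `v` has degree `1` and `κ` is algebraic over `𝔽_p`:
modulo the centre every element is congruent to a constant, which is a root of unity. -/
theorem cen_isMaximal (p : ℕ) [Fact p.Prime] [Algebra (ZMod p) κ]
    [Algebra.IsAlgebraic (ZMod p) κ] (hdeg : v.deg = 1) :
    (cen Hc res₁ v hcen).IsMaximal := by
  rw [Ideal.isMaximal_iff]
  refine ⟨fun h1 => (cen_isPrime Hc res₁ v hcen).ne_top ((Ideal.eq_top_iff_one _).2 h1), ?_⟩
  intro J b hJ hb hbJ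
  -- the class of `b` in the residue field of `v` is a constant `c ≠ 0`
  set ρ := resChart res₁ Hc.le₁ with hρ
  set r : ↥v.toValuationSubring →+* v.ResidueField := IsLocalRing.residue _ with hr
  have hbu : r (toPlaceRing v ρ hcen b) ≠ 0 := by
    intro h0
    exact hb ((IsLocalRing.residue_eq_zero_iff _).1 h0)
  obtain ⟨c, hc⟩ : ∃ c : κ, algebraMap κ v.ResidueField c = r (toPlaceRing v ρ hcen b) := by
    have hfr : Module.finrank κ v.ResidueField = 1 := hdeg
    obtain ⟨w, hw0, hw⟩ := finrank_eq_one_iff'.1 hfr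
    obtain ⟨c₁, hc₁⟩ := hw 1
    obtain ⟨c₂, hc₂⟩ := hw (r (toPlaceRing v ρ hcen b))
    have hc₁0 : c₁ ≠ 0 := by
      rintro rfl
      rw [zero_smul] at hc₁
      exact one_ne_zero hc₁.symm
    refine ⟨c₂ * c₁⁻¹, ?_⟩
    rw [Algebra.algebraMap_eq_smul_one, ← hc₂]
    rw [← hc₁, smul_smul, mul_assoc, inv_mul_cancel₀ hc₁0, mul_one]
  have hc0 : c ≠ 0 := by
    rintro rfl
    rw [map_zero] at hc
    exact hbu hc.symm
  obtain ⟨m, hm, hcm⟩ := exists_pow_eq_one_of_isAlgebraic_zmod p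
    (Algebra.IsAlgebraic.isAlgebraic (R := ZMod p) c) hc0
  -- `b ^ m - 1 ∈ 𝔫 ⊆ J`
  have hmem : b ^ m - 1 ∈ cen Hc res₁ v hcen := by
    show toPlaceRing v ρ hcen (b ^ m - 1) ∈ IsLocalRing.maximalIdeal ↥v.toValuationSubring
    rw [← IsLocalRing.residue_eq_zero_iff, map_sub, map_pow, map_one, map_sub, map_pow, map_one,
      ← hr, ← hc, ← map_pow, hcm, map_one, sub_self]
  have h1 : (1 : B) = b ^ m - (b ^ m - 1) := by ring
  rw [h1]
  obtain ⟨m', rfl⟩ : ∃ m', m = m' + 1 := ⟨m - 1, by omega⟩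
  exact J.sub_mem (by rw [pow_succ]; exact J.mul_mem_left _ hbJ) (hJ hmem)

end Maximal

section NodePlaceW

variable {π : B} {O₁ O₂ : ValuationSubring F} {K : ℕ} (hN : NodalChartHyp π O₁ O₂ K)
  [IsNoetherianRing B]
  (res₁ : ↥O₁ →+* k) (hres : ∀ z : ↥O₁, ¬ IsUnit z → res₁ z = 0)
  (v : Place κ k) (hcen : ∀ b : B, resChart res₁ hN.chart.le₁ b ∈ v.toValuationSubring)

include hres in
/-- **A place of `X₁` whose centre lies on both branches is a weak node place at its centre.**
`hF` : `F = Frac B`; `htop` : `k = κ(res₁ O₁)`; `κ` algebraic over `𝔽_p`, `deg v = 1`. -/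
theorem nodePlaceW_of_centre (p : ℕ) [Fact p.Prime] [Algebra (ZMod p) κ]
    [Algebra.IsAlgebraic (ZMod p) κ] (hdeg : v.deg = 1)
    (hoff₂ : ¬ Off π O₂ (cen hN.chart res₁ v hcen))
    (hF : ∀ z : F, ∃ b₁ b₂ : B, b₂ ≠ 0 ∧ z * algebraMap B F b₂ = algebraMap B F b₁)
    (htop : IntermediateField.adjoin κ (Set.range res₁) = ⊤) :
    (cen hN.chart res₁ v hcen).IsMaximal ∧
    ∃ (H₁ : BranchHyp (algebraMap B F) (cen hN.chart res₁ v hcen) O₁ π)
      (H₂ : BranchHyp (algebraMap B F) (cen hN.chart res₁ v hcen) O₂ π)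
      (x y : Localization.AtPrime (cen hN.chart res₁ v hcen)),
      NodeData (Localization.AtPrime (cen hN.chart res₁ v hcen))
        (vv (algebraMap B F) hN.chart.inj (cen hN.chart res₁ v hcen) O₁ π)
        (vv (algebraMap B F) hN.chart.inj (cen hN.chart res₁ v hcen) O₂ π)
        (PP (algebraMap B F) hN.chart.inj (cen hN.chart res₁ v hcen) H₁)
        (PP (algebraMap B F) hN.chart.inj (cen hN.chart res₁ v hcen) H₂)
        (algebraMap B (Localization.AtPrime (cen hN.chart res₁ v hcen)) π) x y K ∧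
      NodePlaceW (PP (algebraMap B F) hN.chart.inj (cen hN.chart res₁ v hcen) H₁)
        (res₁.comp (toO O₁ (iota (algebraMap B F) hN.chart.inj (cen hN.chart res₁ v hcen))
          (iota_mem (algebraMap B F) hN.chart.inj (cen hN.chart res₁ v hcen) H₁))) v := by
  have hmax := cen_isMaximal hN.chart res₁ v hcen p hdeg
  refine ⟨hmax, ?_⟩
  obtain ⟨H₁, H₂, x, y, D⟩ := hN.node (cen hN.chart res₁ v hcen)
    (not_off_cen hN.chart res₁ hres v hcen) hoff₂
  refine ⟨H₁, H₂, x, y, D, ?_⟩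
  haveI : IsNoetherianRing (Localization.AtPrime (cen hN.chart res₁ v hcen)) :=
    IsLocalization.isNoetherianRing (cen hN.chart res₁ v hcen).primeCompl _ inferInstance
  set 𝔫 := cen hN.chart res₁ v hcen with h𝔫
  have hinj : Function.Injective (iota (algebraMap B F) hN.chart.inj 𝔫) :=
    iota_injective (algebraMap B F) hN.chart.inj 𝔫
  have hFA : ∀ z : F, ∃ a₁ a₂ : Localization.AtPrime 𝔫, a₂ ≠ 0 ∧
      z * iota (algebraMap B F) hN.chart.inj 𝔫 a₂ = iota (algebraMap B F) hN.chart.inj 𝔫 a₁ := by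
    intro z
    obtain ⟨b₁, b₂, hb₂, hz⟩ := hF z
    refine ⟨algebraMap B _ b₁, algebraMap B _ b₂, ?_, ?_⟩
    · intro h0
      have := congrArg (iota (algebraMap B F) hN.chart.inj 𝔫) h0
      rw [iota_algebraMap, map_zero] at this
      exact hb₂ (hN.chart.inj (by rw [this, map_zero]))
    · rw [iota_algebraMap, iota_algebraMap]; exact hz
  exact Fermat.Agent.T1B.Unif77.nodePlaceW_of_res D (iota (algebraMap B F) hN.chart.inj 𝔫) hinj O₁
    (iota_mem (algebraMap B F) hN.chart.inj 𝔫 H₁) res₁ hres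
    (rhoLoc_eq_zero_iff hN.chart.inj 𝔫 H₁ res₁ hres) hFA p
    (rhoLoc_mem hN.chart res₁ v hcen H₁) (rhoLoc_pos hN.chart res₁ v hcen H₁) htop

end NodePlaceW

end Fermat.Agent.T1B.Brandt96
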