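/-
Programme T1B (row 38 / S44), NODE PLACES, top level (helper96): THE PLACE-INDEXED PACKAGE
`(ιE, vE, 𝔪, H₁, H₂, x, y, D, HP)` OF THE NODES OF ONE CHART.

Setting of `Centre.lean`: a chart `B ⊂ F` of the nodal model (`hN : NodalChartHyp π O₁ O₂ K`), the
residue map `res₁ : O₁ →+* k` of the branch `X₁` into the function field `k / κ` of `X₁`.

* `HasCentre Hc res₁ v`   : the place `v` of `k / κ` has a centre on the chart;
* `TwoBranch Hc res₁ v`   : moreover the second branch passes through the centre;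
* `NodeIdx κ Hc res₁`     : the index type `ιE` = places of `X₁` with a two-branch centre;
  `vE e = e.1`; `nodeIdeal e` = the centre `𝔪 e`;
* `nodeIdeal_isMaximal`, `nodeIdeal_not_off₁/₂`, `nodeH₁`, `nodeH₂`, `nodeX`, `nodeY`, `nodeData`,
  `nodeHP` : the families consumed by `R1Asm2.rho_hub` (bundled form) and by
  `Hol80.exists_const_ord_res_vertical`;
* `exists_const_ord_node` : **W3 (G1) (i)** for the place-indexed nodes: `ord_{vE e} (res₁ h0) = c`
  for all `e`, `c * K = ord_{O₂} h0`;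
* `off_of_not_exists`     : a place with a centre on the chart which is not a `vE e` has the second
  branch OFF its centre (input of W3 (ii), `Brandt36.ord_res_eq_zero_of_off_branch`);
* `exists_nodeIdx_of_hall`, `nonempty_nodeIdx` : every two-branch maximal ideal is a `nodeIdeal e`,
  from the existence of a place centred at it (hypothesis `hex`, in the conclusion shape of
  `Brandt90.exists_place_centre`).
-/
import Mathlib
import Fermat.Agent.T1B.Brandt96.Centre
import Fermat.Agent.T1B.Hol80.AuxNodeI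

set_option autoImplicit false
set_option linter.unusedSectionVars false
set_option linter.unusedVariables false
set_option linter.style.haveILetI false

namespace Fermat.Agent.T1B.Brandt96

open AlgebraicCurve IsLocalRing Fermat.Agent.T1.Peu37.NodeClassGroup Fermat.Agent.T1B.Hol80
  Fermat.Agent.T1B.NodeNF37.Local Fermat.Agent.T1B.NodeNF37.UnifOrd

variable {B F : Type*} [CommRing B] [IsDomain B] [Field F] [Algebra B F]
variable {k : Type*} [Field k]

section Index

variable {κ : Type*} [Field κ] [Algebra κ k]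
variable {π : B} {O₁ O₂ : ValuationSubring F} (Hc : ChartHyp π O₁ O₂) (res₁ : ↥O₁ →+* k)

/-- The place `v` of `k / κ` has a centre on the chart `B`. -/
abbrev HasCentre (v : Place κ k) : Prop :=
  ∀ b : B, resChart res₁ Hc.le₁ b ∈ v.toValuationSubring

/-- The place `v` has a centre on the chart through which the second branch passes (the first one
always does): `v` is a NODE PLACE of the chart. -/
def TwoBranch (v : Place κ k) : Prop :=
  ∃ hcen : HasCentre Hc res₁ v, ¬ Off π O₂ (cen Hc res₁ v hcen)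

variable (κ) in
/-- **The index type of the nodes of the chart**: the places of `X₁` with a two-branch centre. -/
def NodeIdx : Type _ := {v : Place κ k // TwoBranch Hc res₁ v}

variable {Hc res₁}

theorem NodeIdx.hasCentre (e : NodeIdx κ Hc res₁) : HasCentre Hc res₁ e.1 := e.2.choose

/-- The node `𝔪 e` of the chart under the node place `e`. -/
noncomputable abbrev nodeIdeal (e : NodeIdx κ Hc res₁) : Ideal B :=
  cen Hc res₁ e.1 e.hasCentre

theorem mem_nodeIdeal_iff (e : NodeIdx κ Hc res₁) (b : B) : b ∈ nodeIdeal e ↔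
    resChart res₁ Hc.le₁ b = 0 ∨ 0 < e.1.ord (resChart res₁ Hc.le₁ b) :=
  mem_cen_iff Hc res₁ e.1 e.hasCentre b

theorem nodeIdeal_not_off₂ (e : NodeIdx κ Hc res₁) : ¬ Off π O₂ (nodeIdeal e) := e.2.choose_spec

theorem nodeIdeal_not_off₁ (hres : ∀ z : ↥O₁, ¬ IsUnit z → res₁ z = 0) (e : NodeIdx κ Hc res₁) :
    ¬ Off π O₁ (nodeIdeal e) := not_off_cen Hc res₁ hres e.1 e.hasCentre

theorem nodeH₁ (hres : ∀ z : ↥O₁, ¬ IsUnit z → res₁ z = 0) (e : NodeIdx κ Hc res₁) :
    BranchHyp (algebraMap B F) (nodeIdeal e) O₁ π := branchHyp_cen Hc res₁ hres e.1 e.hasCentre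

theorem nodeH₂ (e : NodeIdx κ Hc res₁) : BranchHyp (algebraMap B F) (nodeIdeal e) O₂ π where
  le := Hc.le₂
  unif := Hc.unif₂
  on b hb hex := nodeIdeal_not_off₂ e ⟨b, hb, hex⟩

theorem nodeIdeal_isMaximal (p : ℕ) [Fact p.Prime] [Algebra (ZMod p) κ]
    [Algebra.IsAlgebraic (ZMod p) κ] (hdeg : ∀ v : Place κ k, v.deg = 1)
    (e : NodeIdx κ Hc res₁) : (nodeIdeal e).IsMaximal :=
  cen_isMaximal Hc res₁ e.1 e.hasCentre p (hdeg e.1)

/-- A place with a two-branch centre is a `vE e`. -/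
theorem exists_nodeIdx (v : Place κ k) (hcen : HasCentre Hc res₁ v)
    (hoff₂ : ¬ Off π O₂ (cen Hc res₁ v hcen)) :
    ∃ e : NodeIdx κ Hc res₁, e.1 = v ∧ nodeIdeal e = cen Hc res₁ v hcen :=
  ⟨⟨v, hcen, hoff₂⟩, rfl, rfl⟩

/-- **A place with a centre on the chart which is not a node place has the second branch OFF its
centre.** -/
theorem off_of_not_exists (v : Place κ k) (hcen : HasCentre Hc res₁ v)
    (hv : ¬ ∃ e : NodeIdx κ Hc res₁, e.1 = v) : Off π O₂ (cen Hc res₁ v hcen) := by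
  by_contra h
  exact hv ⟨⟨v, hcen, h⟩, rfl⟩

theorem nodeIdx_val_injective :
    Function.Injective (fun e : NodeIdx κ Hc res₁ => (e.1 : Place κ k)) :=
  fun _ _ h => Subtype.ext h

/-- **(hall)** Every two-branch maximal ideal is a `nodeIdeal e`, provided it is the centre of a
place (`hex` = the conclusion of `Brandt90.exists_place_centre`). -/
theorem exists_nodeIdx_of_hall
    (hex : ∀ 𝔫 : Ideal B, 𝔫.IsMaximal → ¬ Off π O₁ 𝔫 → ¬ Off π O₂ 𝔫 →
      ∃ v : Place κ k, (∀ b, resChart res₁ Hc.le₁ b ∈ v.toValuationSubring) ∧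
        ∀ b, b ∈ 𝔫 ↔ resChart res₁ Hc.le₁ b = 0 ∨ 0 < v.ord (resChart res₁ Hc.le₁ b))
    (𝔫 : Ideal B) (h𝔫 : 𝔫.IsMaximal) (h1 : ¬ Off π O₁ 𝔫) (h2 : ¬ Off π O₂ 𝔫) :
    ∃ e : NodeIdx κ Hc res₁, nodeIdeal e = 𝔫 := by
  obtain ⟨v, hcen, hmem⟩ := hex 𝔫 h𝔫 h1 h2
  have hc : cen Hc res₁ v hcen = 𝔫 := by
    ext b
    rw [mem_cen_iff, hmem]
  exact ⟨⟨v, hcen, by rw [hc]; exact h2⟩, hc⟩

/-- The index type is nonempty as soon as the chart has one two-branch maximal ideal. -/
theorem nonempty_nodeIdx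
    (hex : ∀ 𝔫 : Ideal B, 𝔫.IsMaximal → ¬ Off π O₁ 𝔫 → ¬ Off π O₂ 𝔫 →
      ∃ v : Place κ k, (∀ b, resChart res₁ Hc.le₁ b ∈ v.toValuationSubring) ∧
        ∀ b, b ∈ 𝔫 ↔ resChart res₁ Hc.le₁ b = 0 ∨ 0 < v.ord (resChart res₁ Hc.le₁ b))
    (hnode : ∃ 𝔫 : Ideal B, 𝔫.IsMaximal ∧ ¬ Off π O₁ 𝔫 ∧ ¬ Off π O₂ 𝔫) :
    Nonempty (NodeIdx κ Hc res₁) := by
  obtain ⟨𝔫, h𝔫, h1, h2⟩ := hnode
  obtain ⟨e, -⟩ := exists_nodeIdx_of_hall hex 𝔫 h𝔫 h1 h2
  exact ⟨e⟩

end Index

section Package

variable {κ : Type*} [Field κ] [Algebra κ k] [IsNoetherianRing B]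
variable {π : B} {O₁ O₂ : ValuationSubring F} {K : ℕ} (hN : NodalChartHyp π O₁ O₂ K)
  (res₁ : ↥O₁ →+* k) (hres : ∀ z : ↥O₁, ¬ IsUnit z → res₁ z = 0)
  (p : ℕ) [Fact p.Prime] [Algebra (ZMod p) κ] [Algebra.IsAlgebraic (ZMod p) κ]
  (hdeg : ∀ v : Place κ k, v.deg = 1)
  (hF : ∀ z : F, ∃ b₁ b₂ : B, b₂ ≠ 0 ∧ z * algebraMap B F b₂ = algebraMap B F b₁)
  (htop : IntermediateField.adjoin κ (Set.range res₁) = ⊤)

include hN hres p hdeg hF htop in
theorem exists_nodeData (e : NodeIdx κ hN.chart res₁) :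
    ∃ x y : Localization.AtPrime (nodeIdeal e),
      NodeData (Localization.AtPrime (nodeIdeal e))
        (vv (algebraMap B F) hN.chart.inj (nodeIdeal e) O₁ π)
        (vv (algebraMap B F) hN.chart.inj (nodeIdeal e) O₂ π)
        (PP (algebraMap B F) hN.chart.inj (nodeIdeal e) (nodeH₁ hres e))
        (PP (algebraMap B F) hN.chart.inj (nodeIdeal e) (nodeH₂ e))
        (algebraMap B (Localization.AtPrime (nodeIdeal e)) π) x y K ∧
      NodePlaceW (PP (algebraMap B F) hN.chart.inj (nodeIdeal e) (nodeH₁ hres e))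
        (res₁.comp (toO O₁ (iota (algebraMap B F) hN.chart.inj (nodeIdeal e))
          (iota_mem (algebraMap B F) hN.chart.inj (nodeIdeal e) (nodeH₁ hres e)))) e.1 := by
  obtain ⟨-, H₁, H₂, x, y, D, HP⟩ := nodePlaceW_of_centre hN res₁ hres e.1 e.hasCentre p
    (hdeg e.1) (nodeIdeal_not_off₂ e) hF htop
  exact ⟨x, y, D, HP⟩

/-- The first local coordinate at the node `e`. -/
noncomputable def nodeX (e : NodeIdx κ hN.chart res₁) : Localization.AtPrime (nodeIdeal e) :=
  (exists_nodeData hN res₁ hres p hdeg hF htop e).choose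

/-- The second local coordinate at the node `e`. -/
noncomputable def nodeY (e : NodeIdx κ hN.chart res₁) : Localization.AtPrime (nodeIdeal e) :=
  (exists_nodeData hN res₁ hres p hdeg hF htop e).choose_spec.choose

theorem nodeData (e : NodeIdx κ hN.chart res₁) :
    NodeData (Localization.AtPrime (nodeIdeal e))
      (vv (algebraMap B F) hN.chart.inj (nodeIdeal e) O₁ π)
      (vv (algebraMap B F) hN.chart.inj (nodeIdeal e) O₂ π)
      (PP (algebraMap B F) hN.chart.inj (nodeIdeal e) (nodeH₁ hres e))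
      (PP (algebraMap B F) hN.chart.inj (nodeIdeal e) (nodeH₂ e))
      (algebraMap B (Localization.AtPrime (nodeIdeal e)) π)
      (nodeX hN res₁ hres p hdeg hF htop e) (nodeY hN res₁ hres p hdeg hF htop e) K :=
  (exists_nodeData hN res₁ hres p hdeg hF htop e).choose_spec.choose_spec.1

include hN hres p hdeg hF htop in
/-- **The node place `vE e = e.1` is a weak node place at the node `𝔪 e = nodeIdeal e`**, in the
binder shape of `R1Asm2.rho_hub` (`res₁ := res₂.comp (valHom ψ O₁ V₂ hO)`). -/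
theorem nodeHP (e : NodeIdx κ hN.chart res₁) :
    NodePlaceW (PP (algebraMap B F) hN.chart.inj (nodeIdeal e) (nodeH₁ hres e))
      (res₁.comp (toO O₁ (iota (algebraMap B F) hN.chart.inj (nodeIdeal e))
        (iota_mem (algebraMap B F) hN.chart.inj (nodeIdeal e) (nodeH₁ hres e)))) e.1 :=
  (exists_nodeData hN res₁ hres p hdeg hF htop e).choose_spec.choose_spec.2

include hN hres p hdeg hF htop in
/-- **W3 (G1) (i) for the place-indexed nodes**: the order of the residue of a vertical element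
`h0` (`h0 g0 = π ^ n`, `h0` a unit of `O₁`) is the same constant `c = ord_{O₂} h0 / K` at ALL node
places. -/
theorem exists_const_ord_node [Nonempty (NodeIdx κ hN.chart res₁)] {h0 g0 : B} {n : ℕ}
    (hh : h0 * g0 = π ^ n) (hinv : (algebraMap B F h0)⁻¹ ∈ O₁) :
    ∃ c : ℤ, c * (K : ℤ) = (ord O₂ (algebraMap B F π) (algebraMap B F h0) : ℤ) ∧
      (c ≠ 0 ↔ ord O₂ (algebraMap B F π) (algebraMap B F h0) ≠ 0) ∧
      ∀ e : NodeIdx κ hN.chart res₁, e.1.ord (resChart res₁ hN.chart.le₁ h0) = c :=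
  exists_const_ord_res_vertical hN.chart.inj π O₁ O₂ (fun e : NodeIdx κ hN.chart res₁ => nodeIdeal e)
    (fun e => nodeH₁ hres e) (fun e => nodeH₂ e) K
    (nodeX hN res₁ hres p hdeg hF htop) (nodeY hN res₁ hres p hdeg hF htop)
    (nodeData hN res₁ hres p hdeg hF htop) res₁ (fun e => e.1)
    (nodeHP hN res₁ hres p hdeg hF htop) hh (hN.chart.le₁ h0) hinv

end Package

end Fermat.Agent.T1B.Brandt96
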