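/-
Programme T1B (row 38 / S44), cell R2/BRANDT (owner helper36), part (e) (helper96):
THE COUNT `#{x' ∣ e} = deg` (Mathlib only; the NEW ramification API `Ideal.ramificationIdx q R`,
`Ideal.inertiaDeg q R` of `Mathlib/RingTheory/RamificationInertia`).

* `ramificationIdx_eq_one_of_map_eq`  : `p S_q = 𝔪_{S_q}` ⟹ `e(q) = 1`;
* `ramificationIdx_eq_one_of_forall`  : elementwise form: every `z ∈ q` is, up to a factor outside
  `q`, in `p S`;
* `inertiaDeg_eq_one_of_surjective`   : trivial residue extension ⟹ `f(q) = 1`;
* `inertiaDeg_eq_one_of_isAlgClosed`  : algebraically closed residue field ⟹ `f(q) = 1`;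
* `card_primesOver_eq_finrank`        : `S` finite flat over the domain `R`, all `q ∣ p` unramified
  with trivial residue extension ⟹ `#{q ∣ p} = rank_R S` (`= ℓ + 1` for the two degeneracy maps).
-/
import Mathlib

set_option autoImplicit false
set_option linter.unusedSectionVars false
set_option linter.unusedVariables false
set_option linter.style.haveILetI false

namespace Fermat.Agent.T1B.Brandt96

open IsLocalRing

variable {R S : Type*} [CommRing R] [CommRing S] [Algebra R S]

/-- **(E5)** If `p S_q` is the maximal ideal of `S_q` then `q` is unramified over `R`. -/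
theorem ramificationIdx_eq_one_of_map_eq (q : Ideal S) [q.IsPrime]
    (h : (q.under R).map (algebraMap R (Localization.AtPrime q)) =
      maximalIdeal (Localization.AtPrime q)) :
    q.ramificationIdx R = 1 := by
  rw [Ideal.ramificationIdx_def, ENat.toNat_eq_iff_eq_natCast, Nat.cast_one,
    Module.length_eq_one_iff, isSimpleModule_iff_isCoatom, ← Ideal.isMaximal_def,
    IsLocalRing.isMaximal_iff]
  exact h

/-- **(E5), elementwise.**  If every element of `q` is, up to a factor outside `q`, in the extension
`p S` of `p = q ∩ R`, then `q` is unramified over `R`. -/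
theorem ramificationIdx_eq_one_of_forall (q : Ideal S) [q.IsPrime]
    (h : ∀ z ∈ q, ∃ s ∉ q, s * z ∈ (q.under R).map (algebraMap R S)) :
    q.ramificationIdx R = 1 := by
  apply ramificationIdx_eq_one_of_map_eq
  apply le_antisymm
  · rw [IsScalarTower.algebraMap_eq R S (Localization.AtPrime q), ← Ideal.map_map]
    calc Ideal.map (algebraMap S (Localization.AtPrime q))
          (Ideal.map (algebraMap R S) (q.under R))
        ≤ q.map (algebraMap S (Localization.AtPrime q)) := Ideal.map_mono Ideal.map_comap_le
      _ = maximalIdeal (Localization.AtPrime q) := Localization.AtPrime.map_eq_maximalIdeal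
  · rw [← Localization.AtPrime.map_eq_maximalIdeal, Ideal.map_le_iff_le_comap]
    intro z hz
    obtain ⟨s, hs, hsz⟩ := h z hz
    rw [Ideal.mem_comap]
    have hu : IsUnit (algebraMap S (Localization.AtPrime q) s) :=
      IsLocalization.map_units (M := q.primeCompl) _ ⟨s, hs⟩
    have h1 : algebraMap S (Localization.AtPrime q) (s * z) ∈
        ((q.under R).map (algebraMap R S)).map (algebraMap S (Localization.AtPrime q)) :=
      Ideal.mem_map_of_mem _ hsz
    rw [Ideal.map_map, ← IsScalarTower.algebraMap_eq, map_mul] at h1
    exact (Ideal.unit_mul_mem_iff_mem _ hu).1 h1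

/-- Trivial residue extension gives inertia degree `1`. -/
theorem inertiaDeg_eq_one_of_surjective (p : Ideal R) [p.IsMaximal] (q : Ideal S) [q.IsMaximal]
    [q.LiesOver p] (h : Function.Surjective (algebraMap (R ⧸ p) (S ⧸ q))) :
    q.inertiaDeg R = 1 := by
  letI : Field (R ⧸ p) := Ideal.Quotient.field p
  letI : Field (S ⧸ q) := Ideal.Quotient.field q
  rw [Ideal.inertiaDeg_eq_of_isMaximal p q]
  have hbij : Function.Bijective (Algebra.linearMap (R ⧸ p) (S ⧸ q)) :=
    ⟨(algebraMap (R ⧸ p) (S ⧸ q)).injective, h⟩
  rw [← (LinearEquiv.ofBijective (Algebra.linearMap (R ⧸ p) (S ⧸ q)) hbij).finrank_eq,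
    Module.finrank_self]

/-- Algebraically closed residue field: the inertia degree is `1`. -/
theorem inertiaDeg_eq_one_of_isAlgClosed [Algebra.IsIntegral R S] (p : Ideal R) [p.IsMaximal]
    (q : Ideal S) [q.IsMaximal] [q.LiesOver p]
    (hk : @IsAlgClosed (R ⧸ p) (Ideal.Quotient.field p)) : q.inertiaDeg R = 1 := by
  letI : Field (R ⧸ p) := Ideal.Quotient.field p
  letI : Field (S ⧸ q) := Ideal.Quotient.field q
  haveI : IsAlgClosed (R ⧸ p) := hk
  haveI : Algebra.IsIntegral (R ⧸ p) (S ⧸ q) := inferInstance
  exact inertiaDeg_eq_one_of_surjective p q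
    (IsAlgClosed.algebraMap_bijective_of_isIntegral (k := R ⧸ p) (K := S ⧸ q)).2

/-- **(E6)** The count: `S` finite flat over the domain `R`, `p` a prime of `R` such that every prime
`q` of `S` over `p` is unramified with trivial residue extension.  Then the number of primes over
`p` is the rank of `S` over `R`. -/
theorem card_primesOver_eq_finrank [IsDomain R] [Module.Finite R S] [Module.Flat R S]
    (p : Ideal R) [p.IsPrime]
    (he : ∀ q ∈ p.primesOver S, q.ramificationIdx R = 1)
    (hf : ∀ q ∈ p.primesOver S, q.inertiaDeg R = 1) :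
    Nat.card (p.primesOver S) = Module.finrank R S := by
  haveI : Fintype (p.primesOver S) := (Algebra.QuasiFinite.finite_primesOver p).fintype
  rw [← Ideal.sum_ramification_inertia_eq_finrank p S, Nat.card_eq_fintype_card,
    Fintype.card_eq_sum_ones]
  refine Finset.sum_congr rfl fun q _ => ?_
  rw [he q.1 q.2, hf q.1 q.2]

end Fermat.Agent.T1B.Brandt96
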