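/-
Programme T1B (row 38 / S44), NODE PLACES, top level (helper96): `R1Asm2.rho_hub` SPECIALISED TO THE
PLACE-INDEXED NODE PACKAGE of `CentrePkg.lean`.

`ιE := NodeIdx κ hN₀.chart res₁` (the places of `X₁` with a two-branch centre on chart `0`),
`vE e := e.1`, `res₁ := res₂.comp (valHom ψ O₁ V₂ hO)`.  The hypotheses `𝔪, hoff₁, hoff₂, H₁, HP` of
`rho_hub` are discharged by the package; what remains are the four model facts
`hdeg` (all places of `k / κ` have degree one), `hF` (`F = Frac (O ⊗ B₀)`), `htop`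
(`k = κ (res₁ O₁)`) and `κ` algebraic over `𝔽_p`.
-/
import Mathlib
import Fermat.Agent.T1B.R1Asm2.RhoHub
import Fermat.Agent.T1B.Brandt96.CentrePkg

set_option autoImplicit false
set_option linter.unusedSectionVars false
set_option linter.style.haveILetI false

universe u v

open TensorProduct

namespace Fermat.Agent.T1B.Brandt96

open Fermat.Agent.Jac Fermat.Agent.Jac.LineOps39 Fermat.Agent.Jac.JGroup85Pic
open Fermat.Agent.Jac.JSmooth85Alg Fermat.Agent.Jac.BaseChange75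
open Fermat.Agent.T1.RedIface75 Fermat.Agent.T1.Red68
open Fermat.Agent.T1B.RedN3 Fermat.Agent.T1B.Bal60 Fermat.Agent.T1B.Desc1
open Fermat.Agent.T1B.Hol31.Frame
open AlgebraicCurve Fermat.Agent.T1.Peu37.NodeClassGroup Fermat.Agent.T1B.NodeNF37.Local
  Fermat.Agent.T1B.NodeNF37.UnifOrd Fermat.Agent.T1B.Hol31.Local Fermat.Agent.T1B.Brandt36
  Fermat.Agent.T1B.Hol80 Fermat.Agent.T1B.R1Asm2
open scoped Fermat.Agent.Jac.BaseChange75

section RhoHubPkg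

variable {W B0 B1 B01 : Type u} [CommRing W] [CommRing B0] [CommRing B1] [CommRing B01]
  [Algebra W B0] [Algebra W B1] [Algebra W B01] [Algebra B0 B01] [Algebra B1 B01]
  [IsScalarTower W B0 B01] [IsScalarTower W B1 B01]
  (c0 : TwoChart W B0 B1 B01)
  (O : Type u) [CommRing O] [IsDomain O] [IsDiscreteValuationRing O] [Algebra W O]
  (L : Type u) [Field L] [Algebra W L] [Algebra O L] [IsScalarTower W O L] [IsFractionRing O L]
  {F : Type v} [Field F] [Algebra (O ⊗[W] B0) F] [Algebra (O ⊗[W] B1) F] [Algebra (O ⊗[W] B01) F]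
  [IsScalarTower (O ⊗[W] B0) (O ⊗[W] B01) F] [IsScalarTower (O ⊗[W] B1) (O ⊗[W] B01) F]
  [IsDomain (O ⊗[W] B0)] [IsDomain (O ⊗[W] B1)] [IsDomain (O ⊗[W] B01)]
  [IsNoetherianRing (O ⊗[W] B0)] [IsNoetherianRing (O ⊗[W] B1)]
  {F₂ : Type*} [Field F₂] {K₂ : Type*} [Field K₂] [Algebra K₂ F₂]
  {κ k : Type*} [Field κ] [Field k] [Algebra κ k]

/-- **`ρ_const` and `ρ_ker` at the hub for the place-indexed nodes** (`R1Asm2.rho_hub` with
`ιE := NodeIdx κ hN₀.chart (res₂.comp (valHom ψ O₁ V₂ hO))`, `vE e := e.1`). -/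
theorem rho_hub_nodeIdx
    (hinj01 : Function.Injective (algebraMap (O ⊗[W] B01) F))
    {π : O} (hπ : Irreducible π) {ι : Type} [Nonempty ι]
    (hg : NodalGood (c0.baseChange O) π ι)
    {K' : Type u} [Field K'] (X : ∀ i, Comp (c0.baseChange O) (hg.P0 i) (hg.P1 i) K')
    (p : ℕ) [Fact p.Prime] [NeZero p] [Algebra (ZMod p) κ] [Algebra.IsAlgebraic (ZMod p) κ]
    {O₁ O₂ : ValuationSubring F} {K : ℕ}
    (hN₀ : NodalChartHyp (algebraMap O (O ⊗[W] B0) π) O₁ O₂ K)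
    (hN₁ : NodalChartHyp (algebraMap O (O ⊗[W] B1) π) O₁ O₂ K)
    (ψ : F →+* F₂) (V₂ : ValuationSubring F₂) (hO : ∀ z ∈ O₁, ψ z ∈ V₂)
    (res₂ : ↥V₂ →+* k)
    (hres : ∀ z : ↥O₁, ¬ IsUnit z → (res₂.comp (valHom ψ O₁ V₂ hO)) z = 0)
    (hdeg : ∀ v : Place κ k, v.deg = 1)
    (hF : ∀ z : F, ∃ b₁ b₂ : O ⊗[W] B0, b₂ ≠ 0 ∧
      z * algebraMap (O ⊗[W] B0) F b₂ = algebraMap (O ⊗[W] B0) F b₁)
    (htop : IntermediateField.adjoin κ (Set.range (res₂.comp (valHom ψ O₁ V₂ hO))) = ⊤)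
    {C₂ : Subfield F₂}
    (HR : RhoInputs (K₀ := K₂) V₂ res₂
      (fun e : NodeIdx κ hN₀.chart (res₂.comp (valHom ψ O₁ V₂ hO)) => e.1) C₂)
    (hπC : ψ (algebraMap (O ⊗[W] B0) F (algebraMap O (O ⊗[W] B0) π)) ∈ C₂)
    (y : PicX c0 O) (htors : (PicX.map c0 O L y) ^ p = 1)
    (r : NodeIdx κ hN₀.chart (res₂.comp (valHom ψ O₁ V₂ hO)) → ZMod p)
    (hdict : ∀ (M : QC2 O (O ⊗[W] B0) (O ⊗[W] B1) (O ⊗[W] B01)) (hM : M.IsLine)
      (ε : M.N01 →ₗ[O ⊗[W] B01] F) (f : F) (n : ℕ),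
      y = LinePic.mk (c0.baseChange O) M hM → ε ≠ 0 → f ≠ 0 →
      algebraMap (O ⊗[W] B0) F (algebraMap O (O ⊗[W] B0) π) ^ n * f ∈ frame0 M ε ^ p →
      (∀ z ∈ frame0 M ε ^ p, ∃ r : O ⊗[W] B0,
        algebraMap (O ⊗[W] B0) F (algebraMap O (O ⊗[W] B0) π) ^ n * z = r • f) →
      algebraMap (O ⊗[W] B1) F (algebraMap O (O ⊗[W] B1) π) ^ n * f ∈ frame1 M ε ^ p →
      (∀ z ∈ frame1 M ε ^ p, ∃ r : O ⊗[W] B1,
        algebraMap (O ⊗[W] B1) F (algebraMap O (O ⊗[W] B1) π) ^ n * z = r • f) →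
      lam V₂ res₂ (fun e : NodeIdx κ hN₀.chart (res₂.comp (valHom ψ O₁ V₂ hO)) => e.1) p C₂
        (ψ f) = r) :
    (∃ s : ℤ, r = fun _ => (s : ZMod p)) ∧
      ((∃ e, r e = 0) → PicX.map c0 O L y ∈ J0L c0 O L (P00 hg X)) := by
  haveI h𝔪 : ∀ e : NodeIdx κ hN₀.chart (res₂.comp (valHom ψ O₁ V₂ hO)),
      (nodeIdeal e).IsMaximal := fun e => nodeIdeal_isMaximal p hdeg e
  exact rho_hub c0 O L hinj01 hπ hg X p hN₀ hN₁ ψ V₂ hO res₂ hres
    (fun e : NodeIdx κ hN₀.chart (res₂.comp (valHom ψ O₁ V₂ hO)) => e.1)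
    (fun e => nodeIdeal e) (h𝔪 := h𝔪)
    (fun e => nodeIdeal_not_off₁ hres e) (fun e => nodeIdeal_not_off₂ e)
    (fun e => nodeH₁ hres e)
    (fun e => nodeHP hN₀ (res₂.comp (valHom ψ O₁ V₂ hO)) hres p hdeg hF htop e)
    HR hπC y htors r hdict

end RhoHubPkg

end Fermat.Agent.T1B.Brandt96
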